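import Fermat.Agent.LT.Ty.Type

set_option autoImplicit false
set_option linter.unusedSectionVars false

/-! # Automorphisms preserve the type -/

namespace Fermat.Agent.LT.Ty

open Complex Topology NumberField Sp Glob LocFam Filter Fou
open scoped Real ComplexConjugate MatrixGroups

universe w u i

variable {F : Type u} [Field F] [NumberField F]

theorem trace_ringEquiv (θ : F ≃+* F) (a : F) :
    Algebra.trace ℚ F (θ a) = Algebra.trace ℚ F a := by
  have h := Algebra.trace_eq_of_algEquiv (A := ℚ)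
    (AlgEquiv.ofRingEquiv (f := θ) (fun r => by
      rw [eq_ratCast]; exact map_ratCast θ r)) a
  exact h

variable [IsTotallyComplex F]

theorem ev_ringEquiv (θ : F ≃+* F) (a : F) : ev 1 (emb (θ a)) = ev (1 : F) (emb a) := by
  unfold ev
  rw [← emb_mul, ← emb_mul, trV_emb, trV_emb, one_mul, one_mul, trace_ringEquiv]

variable {ι : Type i} {L : LocFam.{w} F ι} (A : Auto L)

theorem lchar_s (v : ι) (x : L.R v) : lchar L v (A.s v x) = lchar L v x := by
  obtain ⟨b, hb, hb'⟩ := exists_lift L v x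
  rw [lchar_eq hb hb', lchar_eq (b := A.θ b), ← map_neg, ev_ringEquiv]
  · rw [← A.s_loc, ← map_sub, A.mem_O_iff]
    exact hb
  · intro v' hv'
    rw [← A.s_loc, A.mem_O_iff]
    exact hb' v' hv'

theorem s_mem_DO_iff {v : ι} {x : L.R v} : A.s v x ∈ DO L v ↔ x ∈ DO L v := by
  rw [mem_DO, mem_DO]
  constructor
  · intro h y hy
    rw [← lchar_s A, map_mul]
    exact h _ ((A.mem_O_iff v y).mpr hy)
  · intro h y hy
    have e : A.s v x * y = A.s v (x * (A.s v).symm y) := by
      rw [map_mul, RingEquiv.apply_symm_apply]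
    rw [e, lchar_s]
    apply h
    rw [← A.mem_O_iff, RingEquiv.apply_symm_apply]
    exact hy

namespace Par

variable {P : Par F} {v : ι} {x : L.R v} {m : ℕ}

theorem s_mem_NP_iff : A.s v x ∈ P.NP L v m ↔ x ∈ P.NP L v m := by
  rw [mem_NP, mem_NP]
  constructor
  · rintro ⟨d, hd, e⟩
    refine ⟨(A.s v).symm d, ?_, ?_⟩
    · rw [← A.mem_O_iff, RingEquiv.apply_symm_apply]; exact hd
    · apply (A.s v).injective
      rw [e, map_mul, map_pow, map_natCast, RingEquiv.apply_symm_apply]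
  · rintro ⟨d, hd, rfl⟩
    exact ⟨A.s v d, (A.mem_O_iff v d).mpr hd, by rw [map_mul, map_pow, map_natCast]⟩

theorem s_mem_ND_iff : A.s v x ∈ P.ND L v m ↔ x ∈ P.ND L v m := by
  rw [mem_ND, mem_ND]
  constructor
  · rintro ⟨d, hd, e⟩
    refine ⟨(A.s v).symm d, ?_, ?_⟩
    · rw [← s_mem_DO_iff A, RingEquiv.apply_symm_apply]; exact hd
    · apply (A.s v).injective
      rw [e, map_mul, map_pow, map_natCast, RingEquiv.apply_symm_apply]
  · rintro ⟨d, hd, rfl⟩
    exact ⟨A.s v d, (s_mem_DO_iff A).mpr hd, by rw [map_mul, map_pow, map_natCast]⟩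

theorem s_a0 : A.s v (L.loc v (P.a0 : F)) = L.loc v (P.a0 : F) := by
  have h1 := P.loc_a0 L v
  have h2 := congrArg (A.s v) h1
  rw [map_mul, map_pow, map_natCast, map_one] at h2
  calc A.s v (L.loc v (P.a0 : F)) =
      A.s v (L.loc v (P.a0 : F)) * (L.loc v (P.a0 : F) * (P.N : L.R v) ^ (3 * P.j)) := by
        rw [h1, mul_one]
    _ = (A.s v (L.loc v (P.a0 : F)) * (P.N : L.R v) ^ (3 * P.j)) * L.loc v (P.a0 : F) := by ring
    _ = L.loc v (P.a0 : F) := by rw [h2, one_mul]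

variable {g : GL (Fin 2) (L.R v)}

theorem map_mem_JS_iff : Matrix.GeneralLinearGroup.map (A.s v : L.R v →+* L.R v) g ∈ P.JS L v ↔
    g ∈ P.JS L v := by
  have e : ∀ i j, (Matrix.GeneralLinearGroup.map (A.s v : L.R v →+* L.R v) g) i j =
      A.s v (g i j) := fun i j => rfl
  rw [mem_JS, mem_JS, e, e, e, e]
  have e1 : ∀ x : L.R v, A.s v x - 1 = A.s v (x - 1) := fun x => by rw [map_sub, map_one]
  rw [e1, e1, s_mem_NP_iff, s_mem_NP_iff, s_mem_NP_iff, s_mem_ND_iff]

theorem map_mem_JG_iff : Matrix.GeneralLinearGroup.map (A.s v : L.R v →+* L.R v) g ∈ P.JG L v ↔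
    g ∈ P.JG L v := by
  rw [mem_JG, mem_JG, ← map_inv, map_mem_JS_iff, map_mem_JS_iff]

theorem psiG_map : P.psiG L v (Matrix.GeneralLinearGroup.map (A.s v : L.R v →+* L.R v) g) =
    P.psiG L v g := by
  unfold psiG
  have e : (Matrix.GeneralLinearGroup.map (A.s v : L.R v →+* L.R v) g) 0 1 =
      A.s v (g 0 1) := rfl
  rw [e, ← lchar_s A v (L.loc v (P.a0 : F) * g 0 1), map_mul, s_a0]

theorem g_mem_J_iff {x : L.G v} : A.g v x ∈ P.J L v ↔ x ∈ P.J L v := by
  constructor
  · obtain ⟨g, rfl⟩ := Matrix.ProjGenLinGroup.mk_surjective x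
    rintro ⟨h, hh, e⟩
    rw [Auto.g, Matrix.ProjGenLinGroup.map_mk] at e
    obtain ⟨u, hu⟩ := Matrix.ProjGenLinGroup.mk_eq_mk_iff.mp e
    change h * sc u = _ at hu
    set u' : (L.R v)ˣ := Units.map ((A.s v).symm : L.R v →* L.R v) u with hu'
    have h1 : Matrix.GeneralLinearGroup.map (A.s v : L.R v →+* L.R v) (sc u') = sc u := by
      ext i j
      have e2 : (Matrix.GeneralLinearGroup.map (A.s v : L.R v →+* L.R v) (sc u')) i j =
        A.s v ((sc u' : GL (Fin 2) (L.R v)) i j) := rfl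
      rw [e2]
      have e3 : ∀ (u : (L.R v)ˣ) (i j), (sc u : GL (Fin 2) (L.R v)) i j = (u : L.R v) *
          (1 : Matrix (Fin 2) (Fin 2) (L.R v)) i j := by
        intro u i j
        show ((sc u : GL (Fin 2) (L.R v)) : Matrix (Fin 2) (Fin 2) (L.R v)) i j = _
        rw [sc_coe]; rfl
      rw [e3, e3, map_mul]
      have e4 : A.s v (u' : L.R v) = u := by
        rw [hu', Units.coe_map]
        exact (A.s v).apply_symm_apply _
      rw [e4]
      congr 1
      by_cases hij : i = j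
      · rw [hij, Matrix.one_apply_eq, map_one]
      · rw [Matrix.one_apply_ne hij, map_zero]
    have h2 : Matrix.GeneralLinearGroup.map (A.s v : L.R v →+* L.R v) (g * (sc u')⁻¹) = h := by
      rw [map_mul, map_inv, h1, ← hu, mul_assoc, mul_inv_cancel, mul_one]
    have h3 : g * (sc u')⁻¹ ∈ P.JG L v := by
      rw [← map_mem_JG_iff A, h2]; exact hh
    refine ⟨_, h3, ?_⟩
    rw [Matrix.ProjGenLinGroup.mk_eq_mk_iff]
    refine ⟨u', ?_⟩
    change g * (sc u')⁻¹ * sc u' = g
    rw [mul_assoc, inv_mul_cancel, mul_one]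
  · rintro ⟨g, hg, rfl⟩
    exact ⟨_, (map_mem_JG_iff A).mpr hg, by rw [Auto.g, Matrix.ProjGenLinGroup.map_mk]⟩

theorem psi_of_not_mem {x : L.G v} (hx : x ∉ P.J L v) : P.psi L v x = 1 := by
  classical
  exact dif_neg hx

theorem psi_g (x : L.G v) : P.psi L v (A.g v x) = P.psi L v x := by
  by_cases hx : x ∈ P.J L v
  · obtain ⟨g, hg, rfl⟩ := hx
    rw [psi_mk hg, Auto.g, Matrix.ProjGenLinGroup.map_mk, psi_mk ((map_mem_JG_iff A).mpr hg),
      psiG_map]
  · have hx' : A.g v x ∉ P.J L v := fun h => hx ((g_mem_J_iff A).mp h)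
    rw [psi_of_not_mem hx, psi_of_not_mem hx']

end Par

end Fermat.Agent.LT.Ty
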