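import Fermat.Agent.LT.Ty.Kir
import Fermat.Agent.LT.Brg.Pt2

set_option autoImplicit false
set_option linter.unusedSectionVars false

/-! # Finiteness of the indices; the projector of the type -/

namespace Fermat.Agent.LT.Ty

open Complex Topology NumberField Sp Glob LocFam Filter Fou
open scoped Real ComplexConjugate MatrixGroups

universe w u i

section Ring

variable {R : Type*} [CommRing R] {O : Subring R} {N : ℕ}

theorem finite_KN (hN : Finite (O ⧸ Ideal.span {(N : O)})) :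
    Finite (GLO O ⧸ (KN O N).subgroupOf (GLO O)) := by
  let φ : GLO O → Matrix (Fin 2) (Fin 2) (O ⧸ Ideal.span {(N : O)}) := fun g =>
    Matrix.of fun i j => Ideal.Quotient.mk _ (⟨(g : GL (Fin 2) R) i j, g.2.1 i j⟩ : O)
  have key' : ∀ a b : GLO O, φ a = φ b → ∀ i j,
      ((a : GL (Fin 2) R)⁻¹ * b : GL (Fin 2) R) i j -
        (1 : Matrix (Fin 2) (Fin 2) R) i j ∈ NO O N := by
    intro a b hab i j
    have h1 : (((a : GL (Fin 2) R)⁻¹ * b : GL (Fin 2) R) : Matrix (Fin 2) (Fin 2) R) - 1 =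
        (((a : GL (Fin 2) R)⁻¹ : GL (Fin 2) R) : Matrix (Fin 2) (Fin 2) R) *
          (((b : GL (Fin 2) R) : Matrix (Fin 2) (Fin 2) R) -
            ((a : GL (Fin 2) R) : Matrix (Fin 2) (Fin 2) R)) := by
      rw [mul_sub, ← Units.val_mul, ← Units.val_mul, inv_mul_cancel, Units.val_one]
    rw [← Matrix.sub_apply, h1, Matrix.mul_apply]
    refine sum_mem fun l _ => mul_mem_NO (a.2.2 i l) ?_
    have h2 := congrFun (congrFun hab l) j
    simp only [φ, Matrix.of_apply] at h2
    rw [eq_comm, Ideal.Quotient.eq, Ideal.mem_span_singleton'] at h2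
    obtain ⟨c, hc⟩ := h2
    refine ⟨c, c.2, ?_⟩
    have h3 := congrArg Subtype.val hc
    simp only [Subring.coe_mul, AddSubgroupClass.coe_sub, Subring.coe_natCast] at h3
    rw [Matrix.sub_apply, ← h3, mul_comm]
  have key : ∀ a b : GLO O, φ a = φ b → (a⁻¹ * b : GLO O) ∈ (KN O N).subgroupOf (GLO O) := by
    intro a b hab
    rw [Subgroup.mem_subgroupOf]
    exact ⟨(a⁻¹ * b).2, key' a b hab⟩
  refine Finite.of_injective (β := Matrix (Fin 2) (Fin 2) (O ⧸ Ideal.span {(N : O)}))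
    (fun q => φ q.out) ?_
  intro a b hab
  rw [← Quotient.out_eq' a, ← Quotient.out_eq' b]
  exact QuotientGroup.eq.2 (key _ _ hab)

theorem finite_PK (hN : Finite (O ⧸ Ideal.span {(N : O)})) :
    Finite (PO O ⧸ (PK O N).subgroupOf (PO O)) := by
  have := finite_KN hN
  let φ : (GLO O ⧸ (KN O N).subgroupOf (GLO O)) →
      (PO O ⧸ (PK O N).subgroupOf (PO O)) := fun q => Quotient.liftOn' q
    (fun g => ((⟨Matrix.ProjGenLinGroup.mk (g : GL (Fin 2) R), ⟨g, g.2, rfl⟩⟩ : PO O) :
      PO O ⧸ (PK O N).subgroupOf (PO O))) (by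
      intro a b hab
      rw [QuotientGroup.leftRel_apply, Subgroup.mem_subgroupOf] at hab
      refine QuotientGroup.eq.2 ?_
      rw [Subgroup.mem_subgroupOf]
      exact ⟨_, hab, by simp⟩)
  refine Finite.of_surjective φ ?_
  intro q
  induction q using QuotientGroup.induction_on with
  | H q =>
  obtain ⟨q, g, hg, rfl⟩ := q
  exact ⟨((⟨g, hg⟩ : GLO O) : GLO O ⧸ (KN O N).subgroupOf (GLO O)), rfl⟩

theorem relIndex_PK (hN : Finite (O ⧸ Ideal.span {(N : O)})) :
    (PK O N).relIndex (PO O) ≠ 0 := by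
  have := finite_PK hN
  exact Subgroup.index_ne_zero_of_finite

end Ring

variable {F : Type u} [Field F] [NumberField F] {ι : Type i}

/-- `O v / N` is finite -/
theorem finite_quot (L : LocFam.{w} F ι) (v : ι) {N : ℕ} (hN : N ≠ 0) :
    Finite (L.O v ⧸ Ideal.span {(N : L.O v)}) := by
  let f : 𝓞 F →+* L.O v :=
    { toFun := fun r => ⟨L.loc v (algebraMap (𝓞 F) F r), (L.isIntegral_iff _).1 r.2 v⟩
      map_one' := Subtype.ext (by simp)
      map_zero' := Subtype.ext (by simp)
      map_mul' := fun a b => Subtype.ext (by simp)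
      map_add' := fun a b => Subtype.ext (by simp) }
  let g : 𝓞 F →+* L.O v ⧸ Ideal.span {(N : L.O v)} := (Ideal.Quotient.mk _).comp f
  have hg : Function.Surjective g := by
    intro y
    obtain ⟨x, rfl⟩ := Ideal.Quotient.mk_surjective y
    classical
    obtain ⟨b, h1, h2⟩ := L.dense {v} (fun v' => if e : v' = v then e ▸ (x : L.R v) else 0) N hN
    have hv := h1 v (Finset.mem_singleton_self v)
    simp only [dite_true] at hv
    have hint : IsIntegral ℤ b := by
      rw [L.isIntegral_iff]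
      intro v'
      by_cases hv' : v' = v
      · subst hv'
        have e1 : L.loc v' b = (L.loc v' b - x) + x := by ring
        rw [e1]
        exact (L.O v').add_mem (NO_le _ _ hv) x.2
      · exact h2 v' (by rwa [Finset.mem_singleton])
    refine ⟨⟨b, hint⟩, ?_⟩
    change Ideal.Quotient.mk _ (f ⟨b, hint⟩) = Ideal.Quotient.mk _ x
    rw [Ideal.Quotient.eq, Ideal.mem_span_singleton']
    obtain ⟨z, hz, e⟩ := hv
    refine ⟨⟨z, hz⟩, Subtype.ext ?_⟩
    rw [mul_comm]
    simp only [Subring.coe_mul, AddSubgroupClass.coe_sub, Subring.coe_natCast]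
    exact e.symm
  have hfin : Finite (𝓞 F ⧸ Ideal.span {(N : 𝓞 F)}) := by
    apply Ideal.finiteQuotientOfFreeOfNeBot
    rw [Ne, Ideal.span_singleton_eq_bot]
    exact Nat.cast_ne_zero.mpr hN
  have hle : Ideal.span {(N : 𝓞 F)} ≤ RingHom.ker g := by
    rw [Ideal.span_singleton_le_iff_mem, RingHom.mem_ker, map_natCast]
    have : ((N : L.O v ⧸ Ideal.span {(N : L.O v)})) = Ideal.Quotient.mk _ (N : L.O v) := by
      rw [map_natCast]
    rw [this, Ideal.Quotient.eq_zero_iff_mem]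
    exact Ideal.mem_span_singleton_self _
  exact Finite.of_surjective (Ideal.Quotient.lift _ g fun a ha => hle ha)
    (Ideal.Quotient.lift_surjective_of_surjective _ _ hg)

theorem relIndex_PK_ne_zero (L : LocFam.{w} F ι) (v : ι) {N : ℕ} (hN : N ≠ 0) :
    (PK (L.O v) N).relIndex (PO (L.O v)) ≠ 0 := relIndex_PK (finite_quot L v hN)

namespace Par

variable [IsTotallyComplex F] {P : Par F} {L : LocFam.{w} F ι} {v : ι} {m : ℕ}

theorem relIndex_J {U : Subgroup (L.G v)} (hU : PK (L.O v) (P.N ^ m) ≤ U) (hUJ : U ≤ P.J L v)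
    (hδ : P.δ ≤ P.j) : U.relIndex (P.J L v) ≠ 0 := by
  have h1 := relIndex_PK_ne_zero L v (N := P.N ^ m) (pow_ne_zero _ P.hN)
  have h2 : (PK (L.O v) (P.N ^ m)).relIndex (P.J L v) ≠ 0 := fun h => h1
    (Subgroup.relIndex_eq_zero_of_le_right ((J_le_PK hδ).trans (Subgroup.map_mono (KN_le _ _))) h)
  exact fun h => h2 (Subgroup.relIndex_eq_zero_of_le_left hU h)

/-- **The type as a character in the sense of the projectors** -/
theorem charOn (hδ : P.δ ≤ P.j) (hm : 3 * P.j + P.δ ≤ m) :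
    Brg.CharOn (PK (L.O v) (P.N ^ m)) (P.J L v) (P.psi L v) where
  le := PK_le_J hm
  fin := relIndex_J le_rfl (PK_le_J hm) hδ
  mul _ hx _ hy := psi_mul hx hy
  one _ hk := psi_PK hm hk

theorem charOn_of_le {U : Subgroup (L.G v)} (hδ : P.δ ≤ P.j) (hm : 3 * P.j + P.δ ≤ m)
    (hU : U ≤ PK (L.O v) (P.N ^ m)) {n : ℕ} (hU' : PK (L.O v) (P.N ^ n) ≤ U) :
    Brg.CharOn U (P.J L v) (P.psi L v) where
  le := hU.trans (PK_le_J hm)
  fin := relIndex_J hU' (hU.trans (PK_le_J hm)) hδ
  mul _ hx _ hy := psi_mul hx hy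
  one _ hk := psi_PK hm (hU hk)

end Par

end Fermat.Agent.LT.Ty
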