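import Fermat.Agent.LT.Ty.Type

set_option autoImplicit false
set_option linter.unusedSectionVars false

/-! # The type at the bad places: the Kirillov property, levels and automorphisms -/

namespace Fermat.Agent.LT.Ty

open Complex Topology NumberField Sp Glob LocFam Filter Fou
open scoped Real ComplexConjugate MatrixGroups

universe w u i

namespace Par

variable {F : Type u} [Field F] [NumberField F] {P : Par F} [IsTotallyComplex F] {ι : Type i}
  {L : LocFam.{w} F ι} {v : ι}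

/-- `J` is contained in a deep congruence subgroup -/
theorem JG_le_KN (hj : P.δ ≤ P.j) : P.JG L v ≤ KN (L.O v) (P.N ^ (P.j - P.δ)) := by
  have key : ∀ g ∈ P.JS L v, ∀ i j, g i j - (1 : Matrix (Fin 2) (Fin 2) (L.R v)) i j ∈
      NO (L.O v) (P.N ^ (P.j - P.δ)) := by
    rintro g ⟨g1, g2, g3, g4⟩ i j
    have g3' : g 0 1 ∈ P.NP L v (P.j - P.δ) := by
      apply ND_le_NP
      rwa [Nat.sub_add_cancel hj]
    rw [← NP_eq_NO]
    fin_cases i <;> fin_cases j
    · exact NP_mono (by omega) g1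
    · change g 0 1 - (1 : Matrix (Fin 2) (Fin 2) (L.R v)) 0 1 ∈ _
      rw [Matrix.one_apply_ne (by decide), sub_zero]; exact g3'
    · change g 1 0 - (1 : Matrix (Fin 2) (Fin 2) (L.R v)) 1 0 ∈ _
      rw [Matrix.one_apply_ne (by decide), sub_zero]; exact NP_mono (by omega) g4
    · exact NP_mono (by omega) g2
  have keyO : ∀ g ∈ P.JS L v, ∀ i j, g i j ∈ L.O v := by
    intro g hg i j
    have h1 := NO_le _ _ (key g hg i j)
    have h2 : (1 : Matrix (Fin 2) (Fin 2) (L.R v)) i j ∈ L.O v := by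
      rw [Matrix.one_apply]; split_ifs; exacts [(L.O v).one_mem, (L.O v).zero_mem]
    have := (L.O v).add_mem h1 h2
    rwa [sub_add_cancel] at this
  intro g hg
  exact ⟨⟨keyO g hg.1, keyO g⁻¹ hg.2⟩, key g hg.1⟩

theorem J_le_PK (hj : P.δ ≤ P.j) : P.J L v ≤ PK (L.O v) (P.N ^ (P.j - P.δ)) :=
  Subgroup.map_mono (JG_le_KN hj)

theorem KN_le_JG {m : ℕ} (hm : 3 * P.j + P.δ ≤ m) : KN (L.O v) (P.N ^ m) ≤ P.JG L v := by
  have key : ∀ g ∈ KN (L.O v) (P.N ^ m), g ∈ P.JS L v := by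
    intro g hg
    have h : ∀ i j, g i j - (1 : Matrix (Fin 2) (Fin 2) (L.R v)) i j ∈ P.NP L v m := fun i j =>
      NP_eq_NO.mpr (hg.2 i j)
    have h00 := h 0 0
    have h01 := h 0 1
    have h10 := h 1 0
    have h11 := h 1 1
    rw [Matrix.one_apply_eq] at h00 h11
    rw [Matrix.one_apply_ne (by decide), sub_zero] at h01 h10
    exact ⟨NP_mono (by omega) h00, NP_mono (by omega) h11, NP_le_ND (NP_mono (by omega) h01),
      NP_mono (by omega) h10⟩
  intro g hg
  exact ⟨key g hg, key _ (inv_mem hg)⟩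

theorem PK_le_J {m : ℕ} (hm : 3 * P.j + P.δ ≤ m) : PK (L.O v) (P.N ^ m) ≤ P.J L v :=
  Subgroup.map_mono (KN_le_JG hm)

theorem psi_PK {m : ℕ} (hm : 3 * P.j + P.δ ≤ m) {x : L.G v} (hx : x ∈ PK (L.O v) (P.N ^ m)) :
    P.psi L v x = 1 := by
  obtain ⟨g, hg, rfl⟩ := hx
  rw [psi_mk (KN_le_JG hm hg), psiG]
  have h01 := NP_eq_NO.mpr (hg.2 0 1)
  rw [Matrix.one_apply_ne (by decide), sub_zero] at h01
  exact lchar_a0_of_ND (NP_le_ND (NP_mono (by omega) h01))

/-- **The Kirillov property.** -/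
theorem kirAt (hR : P.Rad L v) (hj : P.j ≠ 0) : KirAt L P.a0 v (P.J L v) (P.psi L v) := by
  have htri : ∀ b : L.R v, pN b ∈ P.J L v → tri 1 1 b ∈ P.JG L v := fun b hb =>
    mem_JG_of_mk hR hj hb 0
      (by
        rw [tri_coe]
        simp [zero_mem])
      (by
        rw [tri_inv_coe]
        simp [zero_mem])
  refine ⟨fun b hb => ?_, fun x hx => ?_⟩
  · have h1 := htri b hb
    rw [pN, psi_mk h1, psiG]
    rfl
  · -- `x N ^ (3 j) ≡ 1`
    have hpN : ∀ d ∈ DO L v, pN ((P.N : L.R v) ^ P.j * d) ∈ P.J L v := by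
      intro d hd
      refine ⟨tri 1 1 ((P.N : L.R v) ^ P.j * d), ⟨?_, ?_⟩, rfl⟩
      · refine ⟨?_, ?_, ?_, ?_⟩ <;> rw [tri_coe]
        · simp [zero_mem]
        · simp [zero_mem]
        · exact ⟨d, hd, rfl⟩
        · simp [zero_mem]
      · refine ⟨?_, ?_, ?_, ?_⟩ <;> rw [tri_inv_coe]
        · simp [zero_mem]
        · simp [zero_mem]
        · exact ⟨-d, (DO L v).neg_mem hd, by simp⟩
        · simp [zero_mem]
    have h1 : ((x : L.R v) - L.loc v P.a0) * (P.N : L.R v) ^ P.j ∈ L.O v := by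
      refine mem_O_of_dual fun d hd => ?_
      rw [mul_assoc]
      exact hx _ (hpN d hd)
    have h2 : (x : L.R v) * (P.N : L.R v) ^ (3 * P.j) - 1 ∈ P.NP L v (2 * P.j) := by
      refine ⟨_, h1, ?_⟩
      have e1 := P.loc_a0 L v
      rw [show 3 * P.j = 2 * P.j + P.j by ring, pow_add] at e1 ⊢
      linear_combination e1
    -- the element `a = x / a0`
    set a : (L.R v)ˣ := x * (L.un v P.a0)⁻¹ with ha
    have hav : (a : L.R v) = (x : L.R v) * (P.N : L.R v) ^ (3 * P.j) := by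
      have e1 : (a : L.R v) * L.loc v P.a0 = (x : L.R v) := by
        have : a * L.un v P.a0 = x := by rw [ha, inv_mul_cancel_right]
        exact congrArg Units.val this
      have e2 := P.loc_a0 L v
      linear_combination (-(a : L.R v)) * e2 + (P.N : L.R v) ^ (3 * P.j) * e1
    have ha1 : (a : L.R v) - 1 ∈ P.NP L v (2 * P.j) := by rw [hav]; exact h2
    obtain ⟨z, hz, hz'⟩ := hR ((a : L.R v) - 1) (NP_mono (by omega) ha1)
    rw [add_sub_cancel] at hz'
    have haz : ((a⁻¹ : (L.R v)ˣ) : L.R v) = z := by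
      rw [← mul_one ((a⁻¹ : (L.R v)ˣ) : L.R v), ← hz', ← mul_assoc, Units.inv_mul, one_mul]
    have ha2 : ((a⁻¹ : (L.R v)ˣ) : L.R v) - 1 ∈ P.NP L v (2 * P.j) := by
      have e : ((a⁻¹ : (L.R v)ˣ) : L.R v) - 1 = -(((a : L.R v) - 1) * z) := by
        rw [haz]
        linear_combination hz'
      rw [e]
      exact neg_mem (NP_mul ha1 hz)
    have hmem : tri a 1 0 ∈ P.JG L v := by
      refine ⟨⟨?_, ?_, ?_, ?_⟩, ⟨?_, ?_, ?_, ?_⟩⟩
      · rw [tri_coe]; simpa using ha1
      · rw [tri_coe]; simp [zero_mem]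
      · rw [tri_coe]; simp [zero_mem]
      · rw [tri_coe]; simp [zero_mem]
      · rw [tri_inv_coe]; simpa using ha2
      · rw [tri_inv_coe]; simp [zero_mem]
      · rw [tri_inv_coe]; simp [zero_mem]
      · rw [tri_inv_coe]; simp [zero_mem]
    refine ⟨⟨_, hmem, rfl⟩, ?_⟩
    rw [pA, psi_mk hmem, psiG]
    have : (tri a 1 0 : GL (Fin 2) (L.R v)) 0 1 = 0 := by rw [tri_coe]; simp
    rw [this, mul_zero, lchar_zero]

/-- the radical property in helper20's form -/
theorem radAt [Nontrivial (L.R v)] (hR : P.Rad L v) : RadAt L v :=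
  ⟨inferInstance, P.N, P.hN, fun y hy => hR y (by
    rw [NP_eq_NO, pow_one]; exact hy)⟩

/-- the conductor at the good places -/
theorem condAt (hu : ∃ z ∈ L.O v, (P.N : L.R v) * z = 1) : CondAt L (P.a0 : F) v := by
  obtain ⟨z, hz, hz'⟩ := hu
  have ha0 : L.loc v (P.a0 : F) = z ^ (3 * P.j) := by
    have h1 := P.loc_a0 L v
    have h2 : (P.N : L.R v) ^ (3 * P.j) * z ^ (3 * P.j) = 1 := by rw [← mul_pow, hz', one_pow]
    linear_combination (z ^ (3 * P.j)) * h1 - (L.loc v (P.a0 : F)) * h2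
  intro x
  constructor
  · intro h
    have h1 : L.loc v (P.a0 : F) * x ∈ DO L v := fun y hy => by
      rw [mul_assoc]; exact h y hy
    have h2 := mul_mem_O_of_DO (M := P.N ^ P.δ) P.dual h1
    have h3 : x = (z ^ P.δ * (P.N : L.R v) ^ (3 * P.j)) *
        (((P.N ^ P.δ : ℕ) : L.R v) * (L.loc v (P.a0 : F) * x)) := by
      have h4 := P.loc_a0 L v
      have h5 : (P.N : L.R v) ^ P.δ * z ^ P.δ = 1 := by rw [← mul_pow, hz', one_pow]
      push_cast
      linear_combination (-x) * h5 - (x * (P.N : L.R v) ^ P.δ * z ^ P.δ) * h4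
    rw [h3]
    exact (L.O v).mul_mem ((L.O v).mul_mem ((L.O v).pow_mem hz _)
      ((L.O v).pow_mem (natCast_mem _ _) _)) h2
  · intro hx y hy
    apply lchar_of_mem
    rw [ha0]
    exact (L.O v).mul_mem ((L.O v).pow_mem hz _) ((L.O v).mul_mem hx hy)

/-- **The local data of the multiplicity one theorem**, from the good places. -/
theorem typeData {B : Finset ι} (hB : ∀ v ∈ B, P.Rad L v) (hnt : ∀ v, Nontrivial (L.R v))
    (hG : ∀ v ∉ B, ∃ z ∈ L.O v, (P.N : L.R v) * z = 1) (hj : P.j ≠ 0)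
    {I : ι → Type} [∀ v, Fintype (I v)] {H : ∀ v, I v → HData L v}
    (hgood : ∀ v ∉ B, GoodPlace L v (H v)) {U : L.Level} (hU : ∀ v ∉ B, U.U v = PO (L.O v))
    (hU' : ∀ v ∈ B, U.U v ≤ P.J L v) :
    TypeData L B P.a0 (P.J L) (P.psi L) I H U where
  level := hU
  cond v hv := condAt (hG v hv)
  good := hgood
  le := hU'
  kir v hv := kirAt (hB v hv) hj
  rad v hv := by
    have := hnt v
    exact radAt (hB v hv)

end Par

end Fermat.Agent.LT.Ty
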