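import Fermat.Agent.LT.Ty.BadAll

set_option autoImplicit false
set_option linter.unusedSectionVars false

/-! # Matching for the type at all bad places: final form -/

namespace Fermat.Agent.LT.Ty

open NumberField Glob LocFam Fou IsDedekindDomain Filter
open scoped MatrixGroups

universe w u i

open LT.Loc

variable {k E : Type u} [Field k] [NumberField k] [Field E] [NumberField E] [Algebra k E]
  {σ : E ≃ₐ[k] E}

/-- the dual of `𝓞 k` lies in that of `𝓞 E` -/
theorem isDual_up (h : Gal3 σ) {a : k} (ha : IsDual 1 a) : IsDual 1 (algebraMap k E a) := by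
  intro y
  have hint : IsIntegral ℤ (h.tr (y : E)) := by
    have h1 : IsIntegral ℤ (algebraMap k E (h.tr (y : E))) := by
      rw [h.algebraMap_tr]
      have h2 : IsIntegral ℤ (y : E) := y.2
      have h3 : ∀ z : E, IsIntegral ℤ z → IsIntegral ℤ (σ z) := fun z hz =>
        hz.map (σ.toAlgHom.restrictScalars ℤ)
      exact (h2.add (h3 _ h2)).add (h3 _ (h3 _ h2))
    exact (isIntegral_algebraMap_iff (algebraMap k E).injective).1 h1
  obtain ⟨m, hm⟩ := ha ⟨_, hint⟩
  refine ⟨m, ?_⟩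
  have hm' : Algebra.trace ℚ k (a * (((1 : ℕ) : k) * h.tr (y : E))) = m := hm
  rw [← hm', Nat.cast_one, one_mul, Nat.cast_one, one_mul, trace_tr h, ← Algebra.smul_def,
    map_smul, smul_eq_mul]

/-- the parameters for `k` -/
def Par.down (h : Gal3 σ) (P : Par E) : Par k where
  N := P.N
  j := P.j
  δ := P.δ
  hN := P.hN
  dual a ha := by
    have h1 := P.dual _ (isDual_up h ha)
    have e : ((P.N ^ P.δ : ℕ) : E) * algebraMap k E a =
        algebraMap k E (((P.N ^ P.δ : ℕ) : k) * a) := by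
      rw [map_mul, map_natCast]
    rw [e] at h1
    exact (isIntegral_algebraMap_iff (algebraMap k E).injective).1 h1

variable [IsTotallyComplex k] [IsTotallyComplex E]

/-- **Matching for the type at all bad places, with one level.** -/
theorem matchAll (h : Gal3 σ) (N δ : ℕ) (hN : N ≠ 0)
    (hd : ∀ a : E, IsDual 1 a → IsIntegral ℤ (((N ^ δ : ℕ) : E) * a)) :
    ∃ j0 : ℕ, ∀ j, j0 ≤ j → ∀ (hδ : δ ≤ j) (n1 : ℕ) (hn1 : 3 * j + δ ≤ n1), ∃ n : ℕ,
      ∀ v : HeightOneSpectrum (𝓞 k), (N : 𝓞 k) ∈ v.asIdeal →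
        Mp.MatchBad σ v N n1 n (Par.charOn (P := ⟨N, j, δ, hN, hd⟩) (L := locE k E) (v := v)
          hδ hn1).eB := by
  obtain ⟨j0, h0⟩ := exists_matchBad h ⟨N, 0, δ, hN, hd⟩ (Par.down h ⟨N, 0, δ, hN, hd⟩) rfl rfl
  refine ⟨j0, fun j hj hδ n1 hn1 => ?_⟩
  obtain ⟨n, -, h1⟩ := h0 j hj n1 hn1
  exact ⟨n, fun v hv => h1 n le_rfl v hv _⟩

end Fermat.Agent.LT.Ty
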