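import Fermat.Agent.LT.Ty.FinIdx
import Fermat.Agent.LT.Loc.SplitRing
import Fermat.Agent.LT.Loc.ConvAlg

set_option autoImplicit false
set_option linter.unusedSectionVars false

/-! # The type at a split place -/

namespace Fermat.Agent.LT.Ty

open NumberField Glob LocFam Fou
open scoped MatrixGroups

universe w u i

open LT.Loc

section Group

theorem relIndex_prod {G H : Type*} [Group G] [Group H] (A B : Subgroup G) (A' B' : Subgroup H) :
    (A.prod A').relIndex (B.prod B') = A.relIndex B * A'.relIndex B' := by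
  have h1 : (A.prod A').subgroupOf (B.prod B') =
      ((A.subgroupOf B).prod (A'.subgroupOf B')).comap
        (Subgroup.prodEquiv B B').toMonoidHom := by
    ext x
    rfl
  rw [Subgroup.relIndex, h1, Subgroup.index_comap_of_surjective _
    (Subgroup.prodEquiv B B').surjective, Subgroup.index_prod]
  rfl

variable {G H : Type u} [Group G] [Group H] {σ : G →* G} {ι : H →* G} {π : G →* H}
  {J U : Subgroup G} {J' U' : Subgroup H}

theorem relIndex_prod3 (S : Split3 σ ι π) (hJ : IsProd3 σ π J J') (hU : IsProd3 σ π U U') :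
    U.relIndex J = U'.relIndex J' * (U'.relIndex J' * U'.relIndex J') := by
  let e : G →* H × (H × H) := π.prod ((π.comp σ).prod (π.comp (σ.comp σ)))
  have he : Function.Surjective e := by
    rintro ⟨a, b, c⟩
    obtain ⟨g, h1, h2, h3⟩ := S.surj a b c
    exact ⟨g, Prod.ext h1 (Prod.ext h2 h3)⟩
  have h1 : U = (U'.prod (U'.prod U')).comap e := by
    ext g
    exact hU g
  have h2 : J = (J'.prod (J'.prod J')).comap e := by
    ext g
    exact hJ g
  rw [h1, h2, Subgroup.relIndex_comap, Subgroup.map_comap_eq_self_of_surjective he,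
    relIndex_prod, relIndex_prod]

/-- **the projector of a product type** -/
theorem eB_eq_tens3 (S : Split3 σ ι π) (hJ : IsProd3 σ π J J') (hU : IsProd3 σ π U U')
    {ψ : G → ℂ} {ψ' : H → ℂ} (h : Brg.CharOn U J ψ) (h' : Brg.CharOn U' J' ψ')
    (hψ : ∀ g ∈ J, ψ g = ψ' (π g) * ψ' (π (σ g)) * ψ' (π (σ (σ g)))) :
    h.eB = tens3 hU h'.eB h'.eB h'.eB := by
  apply BiInv.ext'
  intro g
  rw [tens3_f]
  by_cases hg : g ∈ J
  · obtain ⟨h1, h2, h3⟩ := (hJ g).1 hg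
    rw [h.eB_of_mem hg, h'.eB_of_mem h1, h'.eB_of_mem h2, h'.eB_of_mem h3, hψ g hg,
      relIndex_prod3 S hJ hU]
    push_cast
    rw [mul_inv, mul_inv, mul_inv, mul_inv]
    ring
  · rw [h.eB_of_notMem hg]
    by_cases h1 : π g ∈ J'
    · by_cases h2 : π (σ g) ∈ J'
      · have h3 : π (σ (σ g)) ∉ J' := fun h3 => hg ((hJ g).2 ⟨h1, h2, h3⟩)
        rw [h'.eB_of_notMem h3, mul_zero]
      · rw [h'.eB_of_notMem h2, mul_zero, zero_mul]
    · rw [h'.eB_of_notMem h1, zero_mul, zero_mul]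

end Group

section Split

variable {E : Type*} [Field E] [NumberField E] [IsTotallyComplex E]
  {k : Type*} [Field k] [NumberField k] [IsTotallyComplex k]
  {ι : Type*} {L : LocFam.{w} E ι} {L₀ : LocFam.{w} k ι} {v : ι}
  {s : L.R v ≃+* L.R v} {i : L₀.R v →+* L.R v} {π : L.R v →+* L₀.R v}

/-- the hypotheses on a split place -/
structure SplitAt (L : LocFam.{w} E ι) (L₀ : LocFam.{w} k ι) (v : ι) (s : L.R v ≃+* L.R v)
    (i : L₀.R v →+* L.R v) (π : L.R v →+* L₀.R v) : Prop where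
  ring : SplitRing s i π
  prod : IsProdO s π (L.O v) (L₀.O v)
  lch : ∀ x, lchar L v x =
    lchar L₀ v (π x) * lchar L₀ v (π (s x)) * lchar L₀ v (π (s (s x)))

namespace SplitAt

variable (S : SplitAt L L₀ v s i π)
include S

theorem shift : SplitAt L L₀ v s i (π.comp (s : L.R v →+* L.R v)) where
  ring :=
    { cube := S.ring.cube
      fix := S.ring.fix
      ret := fun a => by
        show π (s (i a)) = a
        rw [S.ring.fix, S.ring.ret]
      inj := fun x y h1 h2 h3 => by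
        change π (s (s (s x))) = π (s (s (s y))) at h3
        rw [S.ring.cube, S.ring.cube] at h3
        exact S.ring.inj x y h3 h1 h2
      surj := fun a b c => by
        obtain ⟨x, h1, h2, h3⟩ := S.ring.surj c a b
        exact ⟨x, h2, h3, by
          show π (s (s (s x))) = c
          rw [S.ring.cube]; exact h1⟩ }
  prod x := by
    show x ∈ L.O v ↔ π (s x) ∈ L₀.O v ∧ π (s (s x)) ∈ L₀.O v ∧ π (s (s (s x))) ∈ L₀.O v
    rw [S.ring.cube, S.prod x]
    tauto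
  lch x := by
    show _ = lchar L₀ v (π (s x)) * lchar L₀ v (π (s (s x))) * lchar L₀ v (π (s (s (s x))))
    rw [S.ring.cube, S.lch]
    ring

theorem pr_mem_DO {x : L.R v} (hx : x ∈ DO L v) : π x ∈ DO L₀ v := by
  intro y hy
  obtain ⟨z, h1, h2, h3⟩ := S.ring.surj y 0 0
  have hz : z ∈ L.O v := (S.prod z).2 ⟨by rw [h1]; exact hy, by rw [h2]; exact zero_mem _,
    by rw [h3]; exact zero_mem _⟩
  have h4 := hx z hz
  rw [S.lch] at h4
  simp only [map_mul, h1, h2, h3, mul_zero, lchar_zero, mul_one] at h4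
  exact h4

theorem mem_DO_iff {x : L.R v} : x ∈ DO L v ↔
    π x ∈ DO L₀ v ∧ π (s x) ∈ DO L₀ v ∧ π (s (s x)) ∈ DO L₀ v := by
  constructor
  · intro hx
    exact ⟨S.pr_mem_DO hx, S.shift.pr_mem_DO hx, S.shift.shift.pr_mem_DO hx⟩
  · rintro ⟨h1, h2, h3⟩ y hy
    obtain ⟨k1, k2, k3⟩ := (S.prod y).1 hy
    rw [S.lch]
    simp only [map_mul]
    rw [h1 _ k1, h2 _ k2, h3 _ k3, one_mul, one_mul]

variable {P : Par E} {P₀ : Par k} (hN : P₀.N = P.N)
include hN

theorem mem_NP_iff {m : ℕ} {x : L.R v} : x ∈ P.NP L v m ↔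
    π x ∈ P₀.NP L₀ v m ∧ π (s x) ∈ P₀.NP L₀ v m ∧ π (s (s x)) ∈ P₀.NP L₀ v m := by
  rw [Par.NP_eq_NO, Par.NP_eq_NO, Par.NP_eq_NO, Par.NP_eq_NO, hN]
  exact S.ring.mem_NO_iff S.prod _ _

theorem mem_ND_iff {m : ℕ} {x : L.R v} : x ∈ P.ND L v m ↔
    π x ∈ P₀.ND L₀ v m ∧ π (s x) ∈ P₀.ND L₀ v m ∧ π (s (s x)) ∈ P₀.ND L₀ v m := by
  simp only [Par.mem_ND, hN]
  constructor
  · rintro ⟨y, hy, rfl⟩
    obtain ⟨h1, h2, h3⟩ := S.mem_DO_iff.1 hy
    refine ⟨⟨_, h1, ?_⟩, ⟨_, h2, ?_⟩, ⟨_, h3, ?_⟩⟩ <;>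
      simp only [map_mul, map_pow, map_natCast]
  · rintro ⟨⟨a, ha, ha'⟩, ⟨b, hb, hb'⟩, ⟨c, hc, hc'⟩⟩
    obtain ⟨y, rfl, rfl, rfl⟩ := S.ring.surj a b c
    refine ⟨y, S.mem_DO_iff.2 ⟨ha, hb, hc⟩, S.ring.inj _ _ ?_ ?_ ?_⟩
    · rw [ha']; simp only [map_mul, map_pow, map_natCast]
    · rw [hb']; simp only [map_mul, map_pow, map_natCast]
    · rw [hc']; simp only [map_mul, map_pow, map_natCast]

variable (hj : P₀.j = P.j) (hδ : P₀.δ = P.δ)
include hj hδ

theorem mem_JS_iff {g : GL (Fin 2) (L.R v)} : g ∈ P.JS L v ↔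
    Matrix.GeneralLinearGroup.map π g ∈ P₀.JS L₀ v ∧
    Matrix.GeneralLinearGroup.map π (Matrix.GeneralLinearGroup.map (s : L.R v →+* L.R v) g) ∈
      P₀.JS L₀ v ∧
    Matrix.GeneralLinearGroup.map π (Matrix.GeneralLinearGroup.map (s : L.R v →+* L.R v)
      (Matrix.GeneralLinearGroup.map (s : L.R v →+* L.R v) g)) ∈ P₀.JS L₀ v := by
  have e1 : ∀ i j, (Matrix.GeneralLinearGroup.map π g) i j = π (g i j) := fun i j => rfl
  have e2 : ∀ i j, (Matrix.GeneralLinearGroup.map π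
    (Matrix.GeneralLinearGroup.map (s : L.R v →+* L.R v) g)) i j = π (s (g i j)) :=
    fun i j => rfl
  have e3 : ∀ i j, (Matrix.GeneralLinearGroup.map π
    (Matrix.GeneralLinearGroup.map (s : L.R v →+* L.R v)
      (Matrix.GeneralLinearGroup.map (s : L.R v →+* L.R v) g))) i j = π (s (s (g i j))) :=
    fun i j => rfl
  simp only [Par.mem_JS, e1, e2, e3]
  rw [S.mem_NP_iff hN, S.mem_NP_iff hN, S.mem_NP_iff hN, S.mem_ND_iff hN, hj, hδ]
  simp only [map_sub, map_one]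
  tauto

theorem isProd3_JG : IsProd3 (Matrix.GeneralLinearGroup.map (n := Fin 2) (s : L.R v →+* L.R v))
    (Matrix.GeneralLinearGroup.map (n := Fin 2) π) (P.JG L v) (P₀.JG L₀ v) := by
  intro g
  simp only [Par.mem_JG, ← map_inv]
  rw [S.mem_JS_iff hN hj hδ, S.mem_JS_iff hN hj hδ]
  tauto

theorem isProd3_J : IsProd3 (Matrix.ProjGenLinGroup.map (n := Fin 2) (s : L.R v →+* L.R v))
    (Matrix.ProjGenLinGroup.map (n := Fin 2) π) (P.J L v) (P₀.J L₀ v) :=
  S.ring.isProd3_map (S.isProd3_JG hN hj hδ)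

omit hδ in
theorem pr_a0 : π (L.loc v (P.a0 : E)) = L₀.loc v (P₀.a0 : k) := by
  have h1 := congrArg π (P.loc_a0 L v)
  rw [map_mul, map_pow, map_natCast, map_one] at h1
  have h2 := P₀.loc_a0 L₀ v
  rw [hN, hj] at h2
  calc π (L.loc v (P.a0 : E)) =
      π (L.loc v (P.a0 : E)) * (L₀.loc v (P₀.a0 : k) * (P.N : L₀.R v) ^ (3 * P.j)) := by
        rw [h2, mul_one]
    _ = (π (L.loc v (P.a0 : E)) * (P.N : L₀.R v) ^ (3 * P.j)) * L₀.loc v (P₀.a0 : k) := by ring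
    _ = _ := by rw [h1, one_mul]

theorem psi_prod {x : L.G v} (hx : x ∈ P.J L v) : P.psi L v x =
    P₀.psi L₀ v (Matrix.ProjGenLinGroup.map π x) *
    P₀.psi L₀ v (Matrix.ProjGenLinGroup.map π
      (Matrix.ProjGenLinGroup.map (s : L.R v →+* L.R v) x)) *
    P₀.psi L₀ v (Matrix.ProjGenLinGroup.map π
      (Matrix.ProjGenLinGroup.map (s : L.R v →+* L.R v)
        (Matrix.ProjGenLinGroup.map (s : L.R v →+* L.R v) x))) := by
  obtain ⟨g, hg, rfl⟩ := hx
  obtain ⟨h1, h2, h3⟩ := (S.isProd3_JG hN hj hδ g).1 hg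
  rw [Par.psi_mk hg, Matrix.ProjGenLinGroup.map_mk, Matrix.ProjGenLinGroup.map_mk,
    Matrix.ProjGenLinGroup.map_mk, Matrix.ProjGenLinGroup.map_mk, Matrix.ProjGenLinGroup.map_mk,
    Par.psi_mk h1, Par.psi_mk h2, Par.psi_mk h3]
  unfold Par.psiG
  rw [S.lch]
  simp only [map_mul]
  have e1 := S.pr_a0 hN hj
  have e2 : π (s (L.loc v (P.a0 : E))) = L₀.loc v (P₀.a0 : k) := S.shift.pr_a0 hN hj
  have e3 : π (s (s (L.loc v (P.a0 : E)))) = L₀.loc v (P₀.a0 : k) := S.shift.shift.pr_a0 hN hj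
  rw [e1, e2, e3]
  rfl

/-- **The projector of the type at a split place** -/
theorem eB_eq {m : ℕ} (h : Brg.CharOn (PK (L.O v) (P.N ^ m)) (P.J L v) (P.psi L v))
    (h' : Brg.CharOn (PK (L₀.O v) (P.N ^ m)) (P₀.J L₀ v) (P₀.psi L₀ v)) :
    h.eB = tens3 (S.ring.isProd3_PK S.prod (P.N ^ m)) h'.eB h'.eB h'.eB :=
  eB_eq_tens3 S.ring.pgl_split3 (S.isProd3_J hN hj hδ) _ h h'
    (fun _ hx => S.psi_prod hN hj hδ hx)

end SplitAt

end Split

end Fermat.Agent.LT.Ty
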