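import Fermat.Agent.LT.Loc.Match
import Fermat.Agent.LT.Loc.Split
import Fermat.Agent.LT.Brg.Pt2

set_option autoImplicit false

/-! # Change of level in a local correspondence -/

namespace Fermat.Agent.LT.Loc

open Matrix
open scoped MatrixGroups

universe u t

section Corr

variable {T : Type t} [Group T] {Y Y' : Type*} {Y'' : Type u} [MulAction T Y] [MulAction T Y']
  [MulAction T Y''] {φ : Y → ℂ} {φ' : Y' → ℂ}

/-- pulling back a correspondence -/
def LocalCorr.RZ (C : LocalCorr.{u} T Y Y' φ φ') (r : Y'' → Y') : Type u :=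
  {z : C.Z × Y'' // C.q z.1 = r z.2}

omit [MulAction T Y''] in
theorem LocalCorr.card_aux (C : LocalCorr.{u} T Y Y' φ φ') (r : Y'' → Y')
    {n : ℕ} (hfin : ∀ y, {x | r x = y}.Finite)
    (hcard : ∀ y, {x | r x = y}.ncard = n) (y : Y) :
    {z : C.RZ r | C.p z.1.1 = y}.Finite ∧ ∀ {M : Type} [AddCommMonoid M] (g : C.Z → M),
      ∑ᶠ z ∈ {z : C.RZ r | C.p z.1.1 = y}, g z.1.1 = n • ∑ᶠ z ∈ {z | C.p z = y}, g z := by
  classical
  have hf : {z : C.RZ r | C.p z.1.1 = y}.Finite := by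
    have h1 : (⋃ z ∈ {z | C.p z = y}, (fun x : Y'' => (z, x)) '' {x | r x = C.q z}).Finite := by
      refine Set.Finite.biUnion (C.fin_p y) fun z _ => (hfin _).image _
    refine Set.Finite.of_finite_image (f := Subtype.val) (h1.subset ?_)
      Subtype.val_injective.injOn
    rintro _ ⟨⟨⟨z, x⟩, hzx⟩, hz, rfl⟩
    rw [Set.mem_iUnion₂]
    exact ⟨z, hz, x, hzx.symm, rfl⟩
  refine ⟨hf, fun g => ?_⟩
  rw [← Set.Finite.coe_toFinset hf, finsum_mem_coe_finset,
    ← Set.Finite.coe_toFinset (C.fin_p y), finsum_mem_coe_finset]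
  rw [← Finset.sum_fiberwise_of_maps_to (s := hf.toFinset) (t := (C.fin_p y).toFinset)
    (g := fun z : C.RZ r => z.1.1)
    (fun z hz => by
      rw [Set.Finite.mem_toFinset] at hz ⊢
      exact hz), Finset.smul_sum]
  refine Finset.sum_congr rfl fun z hz => ?_
  rw [Set.Finite.mem_toFinset] at hz
  have h2 : ∑ i ∈ hf.toFinset with i.1.1 = z, g i.1.1 =
      ∑ i ∈ hf.toFinset with i.1.1 = z, g z := by
    refine Finset.sum_congr rfl fun i hi => ?_
    rw [(Finset.mem_filter.1 hi).2]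
  rw [h2, Finset.sum_const]
  congr 1
  rw [← hcard (C.q z), Set.ncard_eq_toFinset_card _ (hfin _)]
  refine Finset.card_bij (fun i _ => i.1.2) ?_ ?_ ?_
  · rintro ⟨⟨z', x⟩, hzx⟩ hi
    have e : z' = z := (Finset.mem_filter.1 hi).2
    subst e
    rw [Set.Finite.mem_toFinset]
    exact hzx.symm
  · rintro ⟨⟨z', x⟩, hzx⟩ hi ⟨⟨z'', x'⟩, hzx'⟩ hi' hxx
    have e : z' = z := (Finset.mem_filter.1 hi).2
    have e' : z'' = z := (Finset.mem_filter.1 hi').2
    change x = x' at hxx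
    subst e e' hxx
    rfl
  · intro x hx
    rw [Set.Finite.mem_toFinset] at hx
    refine ⟨⟨(z, x), hx.symm⟩, ?_, rfl⟩
    rw [Finset.mem_filter, Set.Finite.mem_toFinset]
    exact ⟨hz, rfl⟩

/-- **change of level** -/
noncomputable def LocalCorr.refine (C : LocalCorr.{u} T Y Y' φ φ') (r : Y'' → Y')
    (hr : ∀ (t : T) x, r (t • x) = t • r x) {n : ℕ} (hn : n ≠ 0) (hfin : ∀ y, {x | r x = y}.Finite)
    (hcard : ∀ y, {x | r x = y}.ncard = n) :
    LocalCorr.{u} T Y Y'' φ (fun x => φ' (r x) * ((n : ℂ))⁻¹) where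
  Z := C.RZ r
  act :=
    { smul := fun t z => ⟨(t • z.1.1, t • z.1.2), by rw [C.q_smul, hr, z.2]⟩
      one_smul := fun z => Subtype.ext (Prod.ext (one_smul T _) (one_smul T _))
      mul_smul := fun t t' z => Subtype.ext (Prod.ext (mul_smul t t' _) (mul_smul t t' _)) }
  p z := C.p z.1.1
  q z := z.1.2
  p_smul t z := C.p_smul t z.1.1
  q_smul _ _ := rfl
  w z := C.w z.1.1 * ((n : ℂ))⁻¹
  w_smul t z := by
    show C.w (t • z.1.1) * _ = _
    rw [C.w_smul]
  fin_p y := (C.card_aux r hfin hcard y).1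
  fin_q x := by
    refine Set.Finite.of_finite_image (f := fun z : C.RZ r => z.1.1)
      ((C.fin_q (r x)).subset ?_) ?_
    · rintro _ ⟨z, hz, rfl⟩
      have : z.1.2 = x := hz
      rw [Set.mem_ofPred_eq, z.2, this]
    · intro z hz z' hz' hzz
      have h1 : z.1.2 = x := hz
      have h2 : z'.1.2 = x := hz'
      exact Subtype.ext (Prod.ext hzz (h1.trans h2.symm))
  sum_p y := by
    rw [(C.card_aux r hfin hcard y).2 (fun z => C.w z * ((n : ℂ))⁻¹)]
    have h1 : ∑ᶠ z ∈ {z | C.p z = y}, C.w z * ((n : ℂ))⁻¹ =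
        (∑ᶠ z ∈ {z | C.p z = y}, C.w z) * ((n : ℂ))⁻¹ := by
      rw [← Set.Finite.coe_toFinset (C.fin_p y), finsum_mem_coe_finset, finsum_mem_coe_finset,
        Finset.sum_mul]
    rw [h1, C.sum_p, nsmul_eq_mul]
    have : (n : ℂ) ≠ 0 := Nat.cast_ne_zero.2 hn
    field_simp
  sum_q x := by
    rw [← C.sum_q (r x)]
    have h1 : ∑ᶠ z ∈ {z | C.q z = r x}, C.w z * ((n : ℂ))⁻¹ =
        (∑ᶠ z ∈ {z | C.q z = r x}, C.w z) * ((n : ℂ))⁻¹ := by
      rw [← Set.Finite.coe_toFinset (C.fin_q _), finsum_mem_coe_finset, finsum_mem_coe_finset,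
        Finset.sum_mul]
    rw [← h1]
    refine finsum_mem_eq_of_bijOn (fun z : C.RZ r => z.1.1) ⟨?_, ?_, ?_⟩ fun z _ => rfl
    · intro z hz
      have : z.1.2 = x := hz
      rw [Set.mem_ofPred_eq, z.2, this]
    · intro z hz z' hz' hzz
      have h1 : z.1.2 = x := hz
      have h2 : z'.1.2 = x := hz'
      exact Subtype.ext (Prod.ext hzz (h1.trans h2.symm))
    · intro z hz
      exact ⟨⟨(z, x), hz⟩, rfl, rfl⟩

theorem LocalCorr.refine_NC (C : LocalCorr.{u} T Y Y' φ φ') (r : Y'' → Y')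
    (hr : ∀ (t : T) x, r (t • x) = t • r x) {n : ℕ} (hn : n ≠ 0) (hfin : ∀ y, {x | r x = y}.Finite)
    (hcard : ∀ y, {x | r x = y}.ncard = n) (h : C.NC) : (C.refine r hr hn hfin hcard).NC := by
  intro y
  rw [← h y]
  refine ((C.card_aux r hfin hcard y).2 (fun z => ‖C.w z * ((n : ℂ))⁻¹‖)).trans ?_
  have h1 : ∑ᶠ z ∈ {z | C.p z = y}, ‖C.w z * ((n : ℂ))⁻¹‖ =
      (∑ᶠ z ∈ {z | C.p z = y}, ‖C.w z‖) * ((n : ℝ))⁻¹ := by
    rw [← Set.Finite.coe_toFinset (C.fin_p y), finsum_mem_coe_finset, finsum_mem_coe_finset,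
      Finset.sum_mul]
    refine Finset.sum_congr rfl fun z _ => ?_
    rw [norm_mul, norm_inv, Complex.norm_natCast]
  rw [h1, nsmul_eq_mul]
  have : (n : ℝ) ≠ 0 := Nat.cast_ne_zero.2 hn
  field_simp

end Corr

section Level

variable {G : Type*} [Group G] {V V' : Subgroup G}

theorem fib_quotientMap (h : V' ≤ V) (hi : V'.relIndex V ≠ 0) (y : G ⧸ V) :
    {x : G ⧸ V' | Subgroup.quotientMapOfLE h x = y}.Finite ∧
      {x : G ⧸ V' | Subgroup.quotientMapOfLE h x = y}.ncard = V'.relIndex V := by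
  have hc : Brg.CharOn V' V (fun _ => (1 : ℂ)) :=
    ⟨h, hi, fun _ _ _ _ => (mul_one _).symm, fun _ _ => rfl⟩
  induction y using QuotientGroup.induction_on with
  | H g =>
  have h1 : {x : G ⧸ V' | Subgroup.quotientMapOfLE h x = (g : G ⧸ V)} =
      {y : G ⧸ V' | ∃ j ∈ V, y = ((g * j : G) : G ⧸ V')} := by
    ext x
    induction x using QuotientGroup.induction_on with
    | H x =>
    constructor
    · intro hx
      have hx' : (g : G ⧸ V) = (x : G ⧸ V) := Eq.symm hx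
      exact ⟨g⁻¹ * x, QuotientGroup.eq.1 hx', by rw [mul_inv_cancel_left]⟩
    · rintro ⟨j, hj, hx⟩
      rw [hx]
      refine Eq.symm (QuotientGroup.eq.2 ?_)
      show g⁻¹ * (g * j) ∈ V
      rwa [inv_mul_cancel_left]
  rw [h1]
  exact hc.card_eq g

/-- the function divided by the index -/
noncomputable def BiInv.lower (f : BiInv V) (h : V' ≤ V) : BiInv V' where
  f g := f.f g * ((V'.relIndex V : ℕ) : ℂ)⁻¹
  inv k hk k' hk' y := by rw [f.inv k (h hk) k' (h hk') y]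

theorem BiInv.lower_f (f : BiInv V) (h : V' ≤ V) (g : G) :
    (f.lower h).f g = f.f g * ((V'.relIndex V : ℕ) : ℂ)⁻¹ := rfl

theorem BiInv.Fin.lower {f : BiInv V} (hf : f.Fin) (h : V' ≤ V) (hi : V'.relIndex V ≠ 0) :
    (f.lower h).Fin := by
  have h1 : (⋃ y ∈ {y : G ⧸ V | ∃ a : G, (a : G ⧸ V) = y ∧ f.f a ≠ 0},
      {x : G ⧸ V' | Subgroup.quotientMapOfLE h x = y}).Finite :=
    Set.Finite.biUnion hf fun y _ => (fib_quotientMap h hi y).1
  refine h1.subset ?_
  rintro x ⟨a, rfl, ha⟩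
  rw [Set.mem_iUnion₂]
  refine ⟨(a : G ⧸ V), ⟨a, rfl, ?_⟩, rfl⟩
  rw [BiInv.lower_f] at ha
  exact left_ne_zero_of_mul ha

end Level

/-- **a matching function at a deeper level** -/
theorem IsMatch.lower {K L : Type u} [CommRing K] [CommRing L] {i : K →+* L} {σ : L →+* L}
    {U : Subgroup PGL(2, L)} {V V' : Subgroup PGL(2, K)}
    {hU : ∀ k ∈ U, ProjGenLinGroup.map σ k ∈ U} {F : BiInv U} {f : BiInv V}
    (hM : IsMatch.{u, t} i σ hU F f) (h : V' ≤ V) (hi : V'.relIndex V ≠ 0) :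
    IsMatch.{u, t} i σ hU F (f.lower h) where
  corr {T} _ j γ X hγ hX hj := by
    obtain ⟨C, hC⟩ := hM.corr j γ X hγ hX hj
    let _ : MulAction T (PGL(2, L) ⧸ U) := actVia (jL i j) U
    let _ : MulAction T (PGL(2, K) ⧸ V) := actVia (jK j) V
    let _ : MulAction T (PGL(2, K) ⧸ V') := actVia (jK j) V'
    have hr : ∀ (t : T) (x : PGL(2, K) ⧸ V'), Subgroup.quotientMapOfLE h (t • x) =
        t • Subgroup.quotientMapOfLE h x := by
      intro t x
      induction x using QuotientGroup.induction_on with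
      | H x => rfl
    have e : (f.lower h).tw (MonoidHom.id _) (fun _ h => h) (ProjGenLinGroup.mk γ) =
        fun x => f.tw (MonoidHom.id _) (fun _ h => h) (ProjGenLinGroup.mk γ)
          (Subgroup.quotientMapOfLE h x) * ((V'.relIndex V : ℕ) : ℂ)⁻¹ := by
      funext x
      induction x using QuotientGroup.induction_on with
      | H x => rfl
    rw [e]
    exact ⟨C.refine (Subgroup.quotientMapOfLE h) hr hi (fun y => (fib_quotientMap h hi y).1)
      (fun y => (fib_quotientMap h hi y).2), C.refine_NC _ hr hi _ _ hC⟩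
  norm γ g hγ hne := hM.norm γ g hγ (by
    rw [BiInv.lower_f] at hne
    exact left_ne_zero_of_mul hne)

end Fermat.Agent.LT.Loc
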