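import Fermat.Agent.LT.Ty.TrE
import Fermat.Agent.LT.Ty.Prod3
import Fermat.Agent.LT.Ty.Refine
import Fermat.Agent.LT.Loc.BadE
import Fermat.Agent.LT.Mp.BadInst

set_option autoImplicit false
set_option linter.unusedSectionVars false

/-! # Matching for the type at all bad places -/

namespace Fermat.Agent.LT.Ty

open NumberField Glob LocFam Fou IsDedekindDomain Filter
open scoped MatrixGroups

universe w u i

open LT.Loc

/-- change of the parameter `j` -/
def Par.setJ {F : Type*} [Field F] [NumberField F] (P : Par F) (j : ℕ) : Par F := { P with j := j }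

@[simp] theorem Par.setJ_N {F : Type*} [Field F] [NumberField F] (P : Par F) (j : ℕ) :
    (P.setJ j).N = P.N := rfl
@[simp] theorem Par.setJ_j {F : Type*} [Field F] [NumberField F] (P : Par F) (j : ℕ) :
    (P.setJ j).j = j := rfl
@[simp] theorem Par.setJ_δ {F : Type*} [Field F] [NumberField F] (P : Par F) (j : ℕ) :
    (P.setJ j).δ = P.δ := rfl

/-- existence of the parameters -/
theorem exists_par (F : Type*) [Field F] [NumberField F] : ∃ M : ℕ, M ≠ 0 ∧
    ∀ N : ℕ, N ≠ 0 → M ∣ N → ∀ δ ≥ 1, ∀ j, ∃ P : Par F, P.N = N ∧ P.δ = δ ∧ P.j = j := by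
  obtain ⟨M, hM, h⟩ := exists_codifferent F
  refine ⟨M, hM, fun N hN hMN δ hδ j => ⟨⟨N, j, δ, hN, fun a ha => ?_⟩, rfl, rfl, rfl⟩⟩
  obtain ⟨c, hc⟩ : M ∣ N ^ δ := hMN.trans (dvd_pow_self N (by omega))
  rw [hc, mul_comm M c]
  push_cast
  rw [mul_assoc]
  refine IsIntegral.mul ?_ (h a fun y => ?_)
  · exact_mod_cast isIntegral_algebraMap (R := ℤ) (A := F) (x := (c : ℤ))
  · obtain ⟨m, hm⟩ := ha y
    refine ⟨m, ?_⟩
    rw [← hm, Nat.cast_one, one_mul]

variable {k E : Type u} [Field k] [NumberField k] [Field E] [NumberField E] [Algebra k E]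
  {σ : E ≃ₐ[k] E} [IsTotallyComplex k] [IsTotallyComplex E]

/-- split places -/
theorem splitAt_of (h : Gal3 σ) {v : HeightOneSpectrum (𝓞 k)} {e : RE E v}
    (he : IsSplitIdem σ e) :
    SplitAt (locE k E) (locK (F := k)) v (sEquiv v σ) (strE E v)
      (he.pr h : RE E v →+* v.adicCompletion k) where
  ring := he.splitRing h
  prod := he.isProdO h
  lch x := by
    have S := he.splitRing h
    set π : RE E v →+* v.adicCompletion k := (he.pr h : RE E v →+* v.adicCompletion k) with hπ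
    rw [lchar_tr h v (c := π x + π (sEquiv v σ x) + π (sEquiv v σ (sEquiv v σ x)))]
    · exact (lchar_add (L := locK (F := k)) v _ _).trans
        (congrArg (· * _) (lchar_add (L := locK (F := k)) v _ _))
    · set c := π x + π (sEquiv v σ x) + π (sEquiv v σ (sEquiv v σ x)) with hc
      have e1 : ∀ x, sHom v σ x = sEquiv v σ x := fun x => rfl
      rw [e1, e1]
      have e3 := S.cube x
      refine S.inj _ _ ?_ ?_ ?_
      · rw [S.ret, map_add, map_add]
      · rw [S.fix, S.ret, map_add, map_add, map_add, map_add, e3, hc]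
        ring
      · rw [S.fix, S.fix, S.ret, map_add, map_add, map_add, map_add, map_add, map_add, e3, hc]
        ring

/-- **Matching at the bad split places.** -/
theorem matchBad_split (h : Gal3 σ) {P : Par E} {P₀ : Par k} (hN : P₀.N = P.N) (hj : P₀.j = P.j)
    (hδ : P₀.δ = P.δ) {v : HeightOneSpectrum (𝓞 k)} {e : RE E v} (he : IsSplitIdem σ e)
    (hle : P.δ ≤ P.j) {n1 n : ℕ} (hn1 : 3 * P.j + P.δ ≤ n1) (hn : n1 ≤ n)
    (hc : Brg.CharOn (PK (OE E v) (P.N ^ n1)) (P.J (locE k E) v) (P.psi (locE k E) v)) :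
    Mp.MatchBad σ v P.N n1 n hc.eB := by
  have S := splitAt_of h he
  have hc' : Brg.CharOn (PK (Oc (K := k) v) (P.N ^ n1)) (P₀.J (locK (F := k)) v)
      (P₀.psi (locK (F := k)) v) := by
    have := Par.charOn (P := P₀) (L := locK (F := k)) (v := v) (m := n1)
      (by omega) (by omega)
    rwa [hN] at this
  have hle' : PK (Oc (K := k) v) (P.N ^ n) ≤ PK (Oc (K := k) v) (P.N ^ n1) :=
    Subgroup.map_mono (KN_mono (pow_dvd_pow _ hn))
  have hi : (PK (Oc (K := k) v) (P.N ^ n)).relIndex (PK (Oc (K := k) v) (P.N ^ n1)) ≠ 0 :=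
    fun h0 => relIndex_PK_ne_zero (locK (F := k)) v (N := P.N ^ n) (pow_ne_zero _ P.hN)
      (Subgroup.relIndex_eq_zero_of_le_right (Subgroup.map_mono (KN_le _ _)) h0)
  have hfin : hc'.eB.Fin := by
    have := hc'.eH.fin
    exact this
  have hM := isMatch_split.{u, u} (he.splitRing h) ((he.splitRing h).isProd3_PK (he.isProdO h)
    (P.N ^ n1)) (Field.toIsField _) (F₁ := hc'.eB) (F₂ := hc'.eB) (F₃ := hc'.eB) hfin hfin
  have hE := S.eB_eq hN hj hδ hc hc'
  rw [hE]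
  exact ⟨_, ((hfin.conv (hfin.conv hfin)).lower hle' hi), hM.lower hle' hi⟩

/-- **Matching at the bad nonsplit places.** -/
theorem matchBad_field (h : Gal3 σ) (P : Par E) {v : HeightOneSpectrum (𝓞 k)}
    (hv : IsField (RE E v)) (hvN : (P.N : 𝓞 k) ∈ v.asIdeal) :
    ∃ j0, ∀ j ≥ j0, ∀ n1 ≥ 3 * j + P.δ, ∃ n2 ≥ n1, ∀ n ≥ n2,
      ∀ hc : Brg.CharOn (PK (OE E v) (P.N ^ n1)) ((P.setJ j).J (locE k E) v)
        ((P.setJ j).psi (locE k E) v), Mp.MatchBad σ v P.N n1 n hc.eB := by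
  obtain ⟨n0, h0⟩ := exists_isMatch_E' h v hv P.hN hvN
  refine ⟨n0 + P.δ, fun j hj n1 hn1 => ?_⟩
  obtain ⟨n2, hn2, h1⟩ := h0 (j - P.δ) (by omega) n1 (by omega)
  refine ⟨n2, hn2, fun n hn hc => ?_⟩
  refine h1 n hn _ hc.eB fun X hX => ?_
  have hXJ : X ∈ (P.setJ j).J (locE k E) v := by
    by_contra hcon
    exact hX (hc.eB_of_notMem hcon)
  exact Par.J_le_PK (P := P.setJ j) (L := locE k E) (v := v) (by simp; omega) hXJ

/-- **Matching for the type at all bad places.** -/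
theorem exists_matchBad (h : Gal3 σ) (P : Par E) (P₀ : Par k) (hN : P₀.N = P.N)
    (hδ : P₀.δ = P.δ) : ∃ j0, ∀ j ≥ j0, ∀ n1 ≥ 3 * j + P.δ, ∃ n2 ≥ n1, ∀ n ≥ n2,
      ∀ v : HeightOneSpectrum (𝓞 k), (P.N : 𝓞 k) ∈ v.asIdeal →
      ∀ hc : Brg.CharOn (PK (OE E v) (P.N ^ n1)) ((P.setJ j).J (locE k E) v)
        ((P.setJ j).psi (locE k E) v), Mp.MatchBad σ v P.N n1 n hc.eB := by
  classical
  have key : ∀ v ∈ Mp.plN k P.hN, ∃ j0, ∀ j ≥ j0, ∀ n1 ≥ 3 * j + P.δ, ∃ n2 ≥ n1, ∀ n ≥ n2,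
      ∀ hc : Brg.CharOn (PK (OE E v) (P.N ^ n1)) ((P.setJ j).J (locE k E) v)
        ((P.setJ j).psi (locE k E) v), Mp.MatchBad σ v P.N n1 n hc.eB := by
    intro v hv
    rw [Mp.mem_plN] at hv
    rcases field_or_split h v with hf | ⟨e, he⟩
    · exact matchBad_field h P hf hv
    · refine ⟨P.δ, fun j hj n1 hn1 => ⟨n1, le_rfl, fun n hn hc => ?_⟩⟩
      exact matchBad_split (P := P.setJ j) (P₀ := P₀.setJ j) h hN rfl hδ he hj hn1 hn hc
  choose! j0 hj0 using key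
  refine ⟨(Mp.plN k P.hN).sup j0, fun j hj n1 hn1 => ?_⟩
  have key2 : ∀ v ∈ Mp.plN k P.hN, ∃ n2 ≥ n1, ∀ n ≥ n2,
      ∀ hc : Brg.CharOn (PK (OE E v) (P.N ^ n1)) ((P.setJ j).J (locE k E) v)
        ((P.setJ j).psi (locE k E) v), Mp.MatchBad σ v P.N n1 n hc.eB := fun v hv =>
    hj0 v hv j ((Finset.le_sup (f := j0) hv).trans hj) n1 hn1
  choose! n2 hn2 hn2' using key2
  refine ⟨max n1 ((Mp.plN k P.hN).sup n2), le_max_left _ _, fun n hn v hv hc => ?_⟩
  have hv' := (Mp.mem_plN P.hN).2 hv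
  exact hn2' v hv' n (((Finset.le_sup (f := n2) hv').trans (le_max_right _ _)).trans hn) hc

end Fermat.Agent.LT.Ty
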