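import Fermat.Agent.LT.Fou.Mult

set_option autoImplicit false
set_option linter.unusedSectionVars false

/-! # Duality for the local additive characters -/

namespace Fermat.Agent.LT.Ty

open Complex Topology NumberField Sp Glob LocFam Filter Fou
open scoped Real ComplexConjugate MatrixGroups

universe w u i

variable {F : Type u} [Field F] [NumberField F]

theorem isDual_dua (i : Ix F) : IsDual 1 (dua i : F) := by
  classical
  intro a
  obtain ⟨k, rfl⟩ := exists_intc a
  refine ⟨k i, ?_⟩
  have h1 : (dua i : F) * (((1 : ℕ) : F) * (intc k : F)) =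
      ∑ j, ((k j : ℚ)) • (dua i * bas j) := by
    rw [coe_intc, Nat.cast_one, one_mul, Finset.mul_sum]
    refine Finset.sum_congr rfl fun j _ => ?_
    rw [Algebra.smul_def]
    simp only [eq_ratCast, Rat.cast_intCast]
    ring
  rw [h1, map_sum]
  simp only [map_smul, trace_dua_bas, smul_eq_mul, mul_ite, mul_one, mul_zero]
  rw [Finset.sum_ite_eq' Finset.univ i, if_pos (Finset.mem_univ i)]

/-- **Global duality** -/
theorem isIntegral_of_dual {a : F} (h : ∀ c : F, IsDual 1 c →
    ∃ m : ℤ, Algebra.trace ℚ F (a * c) = m) : IsIntegral ℤ a := by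
  classical
  choose m hm using fun i : Ix F => h (dua i) (isDual_dua i)
  have h1 : ∀ j, (integralBasis F).repr a j = Algebra.trace ℚ F (a * dua j) := by
    intro j
    have h2 : a * dua j = ∑ i, ((integralBasis F).repr a i) • (bas i * dua j) := by
      conv_lhs => rw [← (integralBasis F).sum_repr a]
      rw [Finset.sum_mul]
      refine Finset.sum_congr rfl fun i _ => ?_
      rw [smul_mul_assoc]; rfl
    rw [h2, map_sum]
    simp only [map_smul, trace_bas_dua, smul_eq_mul, mul_ite, mul_one, mul_zero]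
    rw [Finset.sum_ite_eq' Finset.univ j, if_pos (Finset.mem_univ j)]
  have h3 : a = ((intc m : 𝓞 F) : F) := by
    rw [coe_intc]
    conv_lhs => rw [← (integralBasis F).sum_repr a]
    refine Finset.sum_congr rfl fun i _ => ?_
    rw [h1, hm, Algebra.smul_def]
    simp only [eq_ratCast, Rat.cast_intCast]
    rfl
  rw [h3]
  exact (intc m).2

variable [IsTotallyComplex F]

theorem ev_one_iff {b : F} : ev 1 (emb b) = 1 ↔ ∃ m : ℤ, Algebra.trace ℚ F b = m := by
  constructor
  · intro hcon
    unfold ev at hcon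
    rw [← emb_mul, trV_emb, Complex.exp_eq_one_iff] at hcon
    obtain ⟨m, hm⟩ := hcon
    refine ⟨m, ?_⟩
    have h2 : (2 * π * I : ℂ) ≠ 0 := Complex.two_pi_I_ne_zero
    have h3 : (((Algebra.trace ℚ F (1 * b) : ℚ) : ℝ) : ℂ) = (m : ℂ) := by
      apply mul_left_cancel₀ h2
      rw [hm]; ring
    rw [one_mul] at h3
    exact_mod_cast h3
  · rintro ⟨m, hm⟩
    exact ev_emb_of_trace_int (m := m) (by rw [one_mul]; exact hm)

theorem ev_neg_one_iff {b : F} : ev 1 (emb (-b)) = 1 ↔ ∃ m : ℤ, Algebra.trace ℚ F b = m := by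
  rw [ev_one_iff]
  constructor
  · rintro ⟨m, hm⟩
    exact ⟨-m, by rw [map_neg] at hm; push_cast; linarith⟩
  · rintro ⟨m, hm⟩
    exact ⟨-m, by rw [map_neg, hm]; push_cast; ring⟩

variable {ι : Type i} {L : LocFam.{w} F ι}

variable (L) in
/-- the dual of `O v` for the local additive character -/
def DO (v : ι) : AddSubgroup (L.R v) where
  carrier := {b | ∀ y ∈ L.O v, lchar L v (b * y) = 1}
  zero_mem' := fun y _ => by rw [zero_mul, lchar_zero]
  add_mem' := fun {a b} ha hb y hy => by rw [add_mul, lchar_add, ha y hy, hb y hy, one_mul]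
  neg_mem' := fun {a} ha y hy => by rw [neg_mul, lchar_neg, ha y hy, inv_one]

theorem mem_DO {v : ι} {b : L.R v} : b ∈ DO L v ↔ ∀ y ∈ L.O v, lchar L v (b * y) = 1 := Iff.rfl

theorem O_le_DO {v : ι} {b : L.R v} (h : b ∈ L.O v) : b ∈ DO L v := fun _ hy =>
  lchar_of_mem ((L.O v).mul_mem h hy)

theorem mul_mem_DO {v : ι} {b y : L.R v} (h : b ∈ DO L v) (hy : y ∈ L.O v) : b * y ∈ DO L v :=
  fun z hz => by rw [mul_assoc]; exact h _ ((L.O v).mul_mem hy hz)

theorem mul_mem_DO' {v : ι} {b y : L.R v} (hy : y ∈ L.O v) (h : b ∈ DO L v) : y * b ∈ DO L v := by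
  rw [mul_comm]; exact mul_mem_DO h hy

theorem lchar_of_mem_DO {v : ι} {b : L.R v} (h : b ∈ DO L v) : lchar L v b = 1 := by
  have := h 1 (L.O v).one_mem
  rwa [mul_one] at this

/-- the global inverse different and the local ones -/
theorem isDual_iff {a : F} : IsDual 1 a ↔ ∀ v, L.loc v a ∈ DO L v := by
  classical
  constructor
  · intro h v y hy
    obtain ⟨S, hS⟩ := exists_finset_compl (L.eventually_mem a)
    obtain ⟨M, hM, hM'⟩ := L.finite_denom (insert v S) (fun v' => L.loc v' a)
    obtain ⟨y', h1, h2⟩ := L.dense (insert v S) (fun v' => if e : v' = v then e ▸ y else 0) M hM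
    have hv := h1 v (Finset.mem_insert_self v S)
    simp only [dite_true] at hv
    have hint : IsIntegral ℤ y' := by
      rw [L.isIntegral_iff]
      intro v'
      by_cases hv' : v' ∈ insert v S
      · by_cases e : v' = v
        · subst e
          have e1 : L.loc v' y' = (L.loc v' y' - y) + y := by ring
          rw [e1]
          exact (L.O v').add_mem (NO_le _ _ hv) hy
        · have := h1 v' hv'
          rw [dif_neg e, sub_zero] at this
          exact NO_le _ _ this
      · exact h2 v' hv'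
    have e1 : lchar L v (L.loc v a * y) = ev 1 (emb (-(a * y'))) := by
      refine lchar_eq ?_ fun v' hv' => ?_
      · obtain ⟨z, hz, e⟩ := hv
        rw [map_mul, ← mul_sub, e, ← mul_assoc, mul_comm (L.loc v a)]
        exact (L.O v).mul_mem (hM' v (Finset.mem_insert_self v S)) hz
      · rw [map_mul]
        by_cases h3 : v' ∈ S
        · have h4 := h1 v' (Finset.mem_insert_of_mem h3)
          rw [dif_neg hv', sub_zero] at h4
          obtain ⟨z, hz, e⟩ := h4
          rw [e, ← mul_assoc, mul_comm (L.loc v' a)]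
          exact (L.O v').mul_mem (hM' v' (Finset.mem_insert_of_mem h3)) hz
        · exact (L.O v').mul_mem (hS v' h3) ((L.isIntegral_iff y').mp hint v')
    rw [e1, ev_neg_one_iff]
    obtain ⟨m, hm⟩ := h ⟨y', hint⟩
    refine ⟨m, ?_⟩
    rw [← hm, Nat.cast_one, one_mul]
    rfl
  · intro h y
    rw [Nat.cast_one, one_mul]
    obtain ⟨S, hS⟩ := exists_finset_compl (L.eventually_mem (a * y))
    rw [← ev_neg_one_iff, ev_eq_prod (L := L) S (a * y) hS]
    refine Finset.prod_eq_one fun v _ => ?_
    rw [map_mul]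
    exact h v _ ((L.isIntegral_iff _).mp y.2 v)

/-- **Local duality** -/
theorem mem_O_of_dual {v : ι} {x : L.R v} (h : ∀ b ∈ DO L v, lchar L v (x * b) = 1) :
    x ∈ L.O v := by
  classical
  obtain ⟨a, ha, ha'⟩ := Fou.exists_lift L v x
  have hint : IsIntegral ℤ a := by
    refine isIntegral_of_dual fun c hc => ?_
    have hc' := (isDual_iff (L := L)).mp hc
    obtain ⟨S, hS⟩ := exists_finset_compl (L.eventually_mem (a * c))
    rw [← ev_neg_one_iff, ev_eq_prod (L := L) S (a * c) hS]
    refine Finset.prod_eq_one fun v' _ => ?_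
    rw [map_mul]
    by_cases e : v' = v
    · subst e
      have e1 : L.loc v' a * L.loc v' c = x * L.loc v' c + (L.loc v' a - x) * L.loc v' c := by
        ring
      rw [e1, lchar_add, h _ (hc' v'), one_mul]
      exact lchar_of_mem_DO (mul_mem_DO' ha (hc' v'))
    · exact lchar_of_mem_DO (mul_mem_DO' (ha' v' e) (hc' v'))
  have h1 := (L.isIntegral_iff a).mp hint v
  have e1 : x = L.loc v a - (L.loc v a - x) := by ring
  rw [e1]
  exact (L.O v).sub_mem h1 ha

/-- denominators of the dual -/
theorem mul_mem_O_of_DO {M : ℕ} (hM : ∀ a : F, IsDual 1 a → IsIntegral ℤ ((M : F) * a)) {v : ι}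
    {b : L.R v} (hb : b ∈ DO L v) : (M : L.R v) * b ∈ L.O v := by
  obtain ⟨a, ha, ha'⟩ := Fou.exists_lift L v b
  have hd : IsDual 1 a := by
    rw [isDual_iff (L := L)]
    intro v'
    by_cases e : v' = v
    · subst e
      have e1 : L.loc v' a = (L.loc v' a - b) + b := by ring
      rw [e1]
      exact (DO L v').add_mem (O_le_DO ha) hb
    · exact O_le_DO (ha' v' e)
  have h1 := (L.isIntegral_iff _).mp (hM a hd) v
  rw [map_mul, map_natCast] at h1
  have e1 : (M : L.R v) * b = (M : L.R v) * L.loc v a - (M : L.R v) * (L.loc v a - b) := by ring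
  rw [e1]
  exact (L.O v).sub_mem h1 ((L.O v).mul_mem (natCast_mem _ _) ha)

end Fermat.Agent.LT.Ty
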