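import Fermat.Agent.LT.Ty.Aut
import Fermat.Agent.LT.Glob.SplitE
import Fermat.Agent.LT.Glob.InstK

set_option autoImplicit false
set_option linter.unusedSectionVars false

/-! # The local characters of a cyclic cubic extension -/

namespace Fermat.Agent.LT.Ty

open Complex Topology NumberField Sp Glob LocFam Filter Fou IsDedekindDomain
open scoped Real ComplexConjugate MatrixGroups

universe w u i

open LT.Loc

section

variable {k E : Type*} [Field k] [NumberField k] [Field E] [NumberField E] [Algebra k E]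
  {σ : E ≃ₐ[k] E}

theorem gal3_ne_one (h : Gal3 σ) : σ ≠ 1 := by
  rintro rfl
  obtain ⟨n, x, y, h1, h2, -⟩ := h.dual
  have h3 : ∑ i, x i * (1 : E ≃ₐ[k] E) (y i) = ∑ i, x i * y i := rfl
  rw [h1, h2] at h3
  exact zero_ne_one h3

theorem gal3_finrank (h : Gal3 σ) : Module.finrank k E = 3 := by
  have h1 : orderOf σ = 3 := by
    have : Fact (Nat.Prime 3) := ⟨Nat.prime_three⟩
    refine orderOf_eq_prime ?_ (gal3_ne_one h)
    apply AlgEquiv.ext
    intro b
    exact h.cube b
  have h2 := IntermediateField.finrank_fixedField_eq_card (Subgroup.zpowers σ)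
  rw [Nat.card_zpowers, h1] at h2
  have h3 : IntermediateField.fixedField (Subgroup.zpowers σ) = ⊥ := by
    rw [eq_bot_iff]
    intro b hb
    rw [IntermediateField.mem_fixedField_iff] at hb
    rw [IntermediateField.mem_bot]
    exact h.fixed b (hb σ (Subgroup.mem_zpowers σ))
  rw [h3] at h2
  rw [← h2]
  exact (IntermediateField.finrank_bot' (F := k) (E := E)).symm

theorem trace_tr (h : Gal3 σ) (b : E) :
    Algebra.trace ℚ E b = Algebra.trace ℚ k (h.tr b) := by
  have h1 : Algebra.trace ℚ E (algebraMap k E (h.tr b)) = 3 * Algebra.trace ℚ E b := by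
    rw [h.algebraMap_tr, map_add, map_add]
    have e1 : Algebra.trace ℚ E (σ b) = Algebra.trace ℚ E b := trace_ringEquiv σ.toRingEquiv b
    have e2 : Algebra.trace ℚ E (σ (σ b)) = Algebra.trace ℚ E (σ b) :=
      trace_ringEquiv σ.toRingEquiv (σ b)
    rw [e2, e1]
    ring
  have h2 : Algebra.trace ℚ E (algebraMap k E (h.tr b)) =
      3 * Algebra.trace ℚ k (h.tr b) := by
    rw [← Algebra.trace_trace (S := k), Algebra.trace_algebraMap, gal3_finrank h, map_nsmul]
    simp
  have h3 := h1.symm.trans h2
  exact mul_left_cancel₀ (by norm_num) h3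

end

variable {k E : Type u} [Field k] [NumberField k] [Field E] [NumberField E] [Algebra k E]
  {σ : E ≃ₐ[k] E} [IsTotallyComplex k] [IsTotallyComplex E]

omit [IsTotallyComplex k] [IsTotallyComplex E] in
theorem loc_tr_sub_mem (h : Gal3 σ) {b : E} (v : HeightOneSpectrum (𝓞 k)) (y : RE E v)
    (d : v.adicCompletion k) (hd : strE E v d = y + sHom v σ y + sHom v σ (sHom v σ y))
    (hy : locHom E v b - y ∈ OE E v) :
    algebraMap k (v.adicCompletion k) (h.tr b) - d ∈ Oc v := by
  rw [← strE_mem (E := E), map_sub, hd]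
  have e1 : strE E v (algebraMap k (v.adicCompletion k) (h.tr b)) = locHom E v b +
      sHom v σ (locHom E v b) + sHom v σ (sHom v σ (locHom E v b)) := by
    rw [strE_coe, h.algebraMap_tr, map_add, map_add, sHom_loc, sHom_loc]
  rw [e1]
  have e4 : locHom E v b +
      sHom v σ (locHom E v b) + sHom v σ (sHom v σ (locHom E v b)) -
      (y + sHom v σ y + sHom v σ (sHom v σ y)) =
      (locHom E v b - y) + sHom v σ (locHom E v b - y) +
      sHom v σ (sHom v σ (locHom E v b - y)) := by
    simp only [map_sub]; ring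
  rw [e4]
  exact add_mem (add_mem hy (sHom_mem σ hy)) (sHom_mem σ (sHom_mem σ hy))

/-- **the local character of `E` is that of `k` composed with the trace** -/
theorem lchar_tr (h : Gal3 σ) (v : HeightOneSpectrum (𝓞 k)) {x : RE E v}
    {c : (locK k).R v} (hc : strE E v c = x + sHom v σ x + sHom v σ (sHom v σ x)) :
    lchar (locE k E) v x = lchar (locK k) v c := by
  obtain ⟨b, hb, hb'⟩ := exists_lift (locE k E) v x
  have h1 : (locK k).loc v (h.tr b) - c ∈ (locK k).O v := loc_tr_sub_mem h v x c hc hb
  have h2 : ∀ v' ≠ v, (locK k).loc v' (h.tr b) ∈ (locK k).O v' := by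
    intro v' hv'
    have := loc_tr_sub_mem h (b := b) v' 0 0 (by simp) (by rw [sub_zero]; exact hb' v' hv')
    rw [sub_zero] at this
    exact this
  have h3 := lchar_eq (L := locK k) h1 h2
  have h4 := lchar_eq (L := locE k E) hb hb'
  rw [h3, h4]
  unfold ev
  rw [← emb_mul, ← emb_mul, trV_emb, trV_emb, one_mul, one_mul, map_neg, map_neg, trace_tr h]

end Fermat.Agent.LT.Ty
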