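import Fermat.Agent.LT.Ty.Dual
import Fermat.Agent.LT.Loc.Corr

set_option autoImplicit false
set_option linter.unusedSectionVars false

/-! # The type at the bad places -/

namespace Fermat.Agent.LT.Ty

open Complex Topology NumberField Sp Glob LocFam Filter Fou
open scoped Real ComplexConjugate MatrixGroups

universe w u i

/-- the parameters of the type: the bad places are those above `N` -/
structure Par (F : Type u) [Field F] [NumberField F] where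
  N : ℕ
  j : ℕ
  δ : ℕ
  hN : N ≠ 0
  dual : ∀ a : F, IsDual 1 a → IsIntegral ℤ (((N ^ δ : ℕ) : F) * a)

namespace Par

variable {F : Type u} [Field F] [NumberField F] (P : Par F)

theorem N_ne : ((P.N : ℕ) : F) ≠ 0 := Nat.cast_ne_zero.mpr P.hN

/-- the frequency `N ^ (-3 j)` -/
noncomputable def a0 : Fˣ := (Units.mk0 ((P.N : ℕ) : F) P.N_ne ^ (3 * P.j))⁻¹

theorem a0_mul : (P.a0 : F) * (P.N : F) ^ (3 * P.j) = 1 := by
  rw [a0]
  have : (((Units.mk0 ((P.N : ℕ) : F) P.N_ne ^ (3 * P.j))⁻¹ : Fˣ) : F) =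
      (((P.N : ℕ) : F) ^ (3 * P.j))⁻¹ := by
    rw [Units.val_inv_eq_inv_val, Units.val_pow_eq_pow_val, Units.val_mk0]
  rw [this]
  exact inv_mul_cancel₀ (pow_ne_zero _ P.N_ne)

variable [IsTotallyComplex F] {ι : Type i} (L : LocFam.{w} F ι)

theorem loc_a0 (v : ι) : L.loc v (P.a0 : F) * (P.N : L.R v) ^ (3 * P.j) = 1 := by
  have := congrArg (L.loc v) P.a0_mul
  rwa [map_mul, map_pow, map_natCast, map_one] at this

/-- `N ^ m` times the dual of `O v` -/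
def ND (v : ι) (m : ℕ) : AddSubgroup (L.R v) where
  carrier := {b | ∃ d ∈ DO L v, b = (P.N : L.R v) ^ m * d}
  zero_mem' := ⟨0, (DO L v).zero_mem, by rw [mul_zero]⟩
  add_mem' := by
    rintro _ _ ⟨d, hd, rfl⟩ ⟨e, he, rfl⟩
    exact ⟨d + e, (DO L v).add_mem hd he, by ring⟩
  neg_mem' := by
    rintro _ ⟨d, hd, rfl⟩
    exact ⟨-d, (DO L v).neg_mem hd, by ring⟩

/-- `N ^ m` times `O v` -/
def NP (v : ι) (m : ℕ) : AddSubgroup (L.R v) where
  carrier := {b | ∃ d ∈ L.O v, b = (P.N : L.R v) ^ m * d}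
  zero_mem' := ⟨0, (L.O v).zero_mem, by rw [mul_zero]⟩
  add_mem' := by
    rintro _ _ ⟨d, hd, rfl⟩ ⟨e, he, rfl⟩
    exact ⟨d + e, (L.O v).add_mem hd he, by ring⟩
  neg_mem' := by
    rintro _ ⟨d, hd, rfl⟩
    exact ⟨-d, (L.O v).neg_mem hd, by ring⟩

variable {P L} {v : ι} {m n : ℕ} {x y : L.R v}

theorem mem_ND : x ∈ P.ND L v m ↔ ∃ d ∈ DO L v, x = (P.N : L.R v) ^ m * d := Iff.rfl
theorem mem_NP : x ∈ P.NP L v m ↔ ∃ d ∈ L.O v, x = (P.N : L.R v) ^ m * d := Iff.rfl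

theorem NP_eq_NO : x ∈ P.NP L v m ↔ x ∈ NO (L.O v) (P.N ^ m) := by
  rw [mem_NP, mem_NO, Nat.cast_pow]

theorem NP_le_O (h : x ∈ P.NP L v m) : x ∈ L.O v := by
  obtain ⟨d, hd, rfl⟩ := h
  exact (L.O v).mul_mem ((L.O v).pow_mem (natCast_mem _ _) _) hd

theorem NP_mono (h : m ≤ n) (hx : x ∈ P.NP L v n) : x ∈ P.NP L v m := by
  obtain ⟨d, hd, rfl⟩ := hx
  refine ⟨(P.N : L.R v) ^ (n - m) * d,
    (L.O v).mul_mem ((L.O v).pow_mem (natCast_mem _ _) _) hd, ?_⟩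
  rw [← mul_assoc, ← pow_add, Nat.add_sub_cancel' h]

theorem NP_mul (hx : x ∈ P.NP L v m) (hy : y ∈ L.O v) : x * y ∈ P.NP L v m := by
  obtain ⟨d, hd, rfl⟩ := hx
  exact ⟨d * y, (L.O v).mul_mem hd hy, by ring⟩

theorem mul_NP (hy : y ∈ L.O v) (hx : x ∈ P.NP L v m) : y * x ∈ P.NP L v m := by
  rw [mul_comm]; exact NP_mul hx hy

theorem ND_mul (hx : x ∈ P.ND L v m) (hy : y ∈ L.O v) : x * y ∈ P.ND L v m := by
  obtain ⟨d, hd, rfl⟩ := hx
  exact ⟨d * y, mul_mem_DO hd hy, by ring⟩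

theorem mul_ND (hy : y ∈ L.O v) (hx : x ∈ P.ND L v m) : y * x ∈ P.ND L v m := by
  rw [mul_comm]; exact ND_mul hx hy

theorem NP_mul_ND (hx : x ∈ P.NP L v m) (hy : y ∈ P.ND L v n) : x * y ∈ P.ND L v (m + n) := by
  obtain ⟨d, hd, rfl⟩ := hx
  obtain ⟨e, he, rfl⟩ := hy
  exact ⟨d * e, mul_mem_DO' hd he, by rw [pow_add]; ring⟩

theorem ND_mul_NP (hx : x ∈ P.ND L v m) (hy : y ∈ P.NP L v n) : x * y ∈ P.ND L v (m + n) := by
  rw [mul_comm, add_comm]; exact NP_mul_ND hy hx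

theorem NP_le_ND (hx : x ∈ P.NP L v m) : x ∈ P.ND L v m := by
  obtain ⟨d, hd, rfl⟩ := hx
  exact ⟨d, O_le_DO hd, rfl⟩

theorem ND_le_NP (hx : x ∈ P.ND L v (m + P.δ)) : x ∈ P.NP L v m := by
  obtain ⟨d, hd, rfl⟩ := hx
  refine ⟨(P.N : L.R v) ^ P.δ * d, ?_, by rw [pow_add]; ring⟩
  have := mul_mem_O_of_DO (M := P.N ^ P.δ) P.dual hd
  rwa [Nat.cast_pow] at this

theorem ND_mono (h : m ≤ n) (hx : x ∈ P.ND L v n) : x ∈ P.ND L v m := by
  obtain ⟨d, hd, rfl⟩ := hx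
  refine ⟨(P.N : L.R v) ^ (n - m) * d,
    mul_mem_DO' ((L.O v).pow_mem (natCast_mem _ _) _) hd, ?_⟩
  rw [← mul_assoc, ← pow_add, Nat.add_sub_cancel' h]

theorem lchar_a0_of_ND (hx : x ∈ P.ND L v (3 * P.j)) :
    lchar L v (L.loc v (P.a0 : F) * x) = 1 := by
  obtain ⟨d, hd, rfl⟩ := hx
  rw [← mul_assoc, P.loc_a0, one_mul]
  exact lchar_of_mem_DO hd

variable (P L) in
/-- the set of matrices of the type -/
def JS (v : ι) : Set (GL (Fin 2) (L.R v)) :=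
  {g | g 0 0 - 1 ∈ P.NP L v (2 * P.j) ∧ g 1 1 - 1 ∈ P.NP L v (2 * P.j) ∧
    g 0 1 ∈ P.ND L v P.j ∧ g 1 0 ∈ P.NP L v (P.j + P.δ)}

theorem mem_JS {g : GL (Fin 2) (L.R v)} : g ∈ P.JS L v ↔
    g 0 0 - 1 ∈ P.NP L v (2 * P.j) ∧ g 1 1 - 1 ∈ P.NP L v (2 * P.j) ∧
    g 0 1 ∈ P.ND L v P.j ∧ g 1 0 ∈ P.NP L v (P.j + P.δ) := Iff.rfl

theorem mem_O_of_sub_one (h : x - 1 ∈ P.NP L v m) : x ∈ L.O v := by
  have e : x = (x - 1) + 1 := by ring
  rw [e]
  exact (L.O v).add_mem (NP_le_O h) (L.O v).one_mem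

theorem JS_mul_aux {g h : GL (Fin 2) (L.R v)} (i j : Fin 2) :
    (g * h : GL (Fin 2) (L.R v)) i j = g i 0 * h 0 j + g i 1 * h 1 j := by
  show ((g * h : GL (Fin 2) (L.R v)) : Matrix (Fin 2) (Fin 2) (L.R v)) i j = _
  rw [Units.val_mul, Matrix.mul_apply, Fin.sum_univ_two]

theorem JS_mul {g h : GL (Fin 2) (L.R v)} (hg : g ∈ P.JS L v) (hh : h ∈ P.JS L v) :
    g * h ∈ P.JS L v := by
  obtain ⟨g1, g2, g3, g4⟩ := hg
  obtain ⟨h1, h2, h3, h4⟩ := hh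
  have k1 : g 0 1 * h 1 0 ∈ P.NP L v (2 * P.j) := by
    have := ND_mul_NP g3 h4
    rw [show P.j + (P.j + P.δ) = 2 * P.j + P.δ by ring] at this
    exact ND_le_NP this
  have k2 : g 1 0 * h 0 1 ∈ P.NP L v (2 * P.j) := by
    have := NP_mul_ND g4 h3
    rw [show P.j + P.δ + P.j = 2 * P.j + P.δ by ring] at this
    exact ND_le_NP this
  refine ⟨?_, ?_, ?_, ?_⟩
  · rw [JS_mul_aux]
    have e : g 0 0 * h 0 0 + g 0 1 * h 1 0 - 1 = (g 0 0 - 1) * h 0 0 + (h 0 0 - 1) +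
        g 0 1 * h 1 0 := by ring
    rw [e]
    exact add_mem (add_mem (NP_mul g1 (mem_O_of_sub_one h1)) h1) k1
  · rw [JS_mul_aux]
    have e : g 1 0 * h 0 1 + g 1 1 * h 1 1 - 1 = g 1 0 * h 0 1 + ((g 1 1 - 1) * h 1 1 +
        (h 1 1 - 1)) := by ring
    rw [e]
    exact add_mem k2 (add_mem (NP_mul g2 (mem_O_of_sub_one h2)) h2)
  · rw [JS_mul_aux]
    exact add_mem (mul_ND (mem_O_of_sub_one g1) h3) (ND_mul g3 (mem_O_of_sub_one h2))
  · rw [JS_mul_aux]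
    exact add_mem (NP_mul g4 (mem_O_of_sub_one h1)) (mul_NP (mem_O_of_sub_one g2) h4)

theorem one_mem_JS : (1 : GL (Fin 2) (L.R v)) ∈ P.JS L v := by
  refine ⟨?_, ?_, ?_, ?_⟩
  · rw [Units.val_one, Matrix.one_apply_eq, sub_self]; exact zero_mem _
  · rw [Units.val_one, Matrix.one_apply_eq, sub_self]; exact zero_mem _
  · rw [Units.val_one, Matrix.one_apply_ne (by decide)]; exact zero_mem _
  · rw [Units.val_one, Matrix.one_apply_ne (by decide)]; exact zero_mem _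

variable (P L) in
/-- **The group of the type**, in `GL₂` -/
def JG (v : ι) : Subgroup (GL (Fin 2) (L.R v)) where
  carrier := {g | g ∈ P.JS L v ∧ g⁻¹ ∈ P.JS L v}
  one_mem' := ⟨one_mem_JS, by rw [inv_one]; exact one_mem_JS⟩
  mul_mem' := fun {g h} hg hh => ⟨JS_mul hg.1 hh.1, by
    rw [mul_inv_rev]; exact JS_mul hh.2 hg.2⟩
  inv_mem' := fun {g} hg => ⟨hg.2, by rw [inv_inv]; exact hg.1⟩

theorem mem_JG {g : GL (Fin 2) (L.R v)} : g ∈ P.JG L v ↔ g ∈ P.JS L v ∧ g⁻¹ ∈ P.JS L v := Iff.rfl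

variable (P L) in
/-- the character, on `GL₂` -/
noncomputable def psiG (v : ι) (g : GL (Fin 2) (L.R v)) : ℂ :=
  lchar L v (L.loc v (P.a0 : F) * g 0 1)

theorem psiG_mul {g h : GL (Fin 2) (L.R v)} (hg : g ∈ P.JS L v) (hh : h ∈ P.JS L v) :
    P.psiG L v (g * h) = P.psiG L v g * P.psiG L v h := by
  obtain ⟨g1, g2, g3, g4⟩ := hg
  obtain ⟨h1, h2, h3, h4⟩ := hh
  unfold psiG
  have e : L.loc v (P.a0 : F) * (g * h : GL (Fin 2) (L.R v)) 0 1 =
      L.loc v (P.a0 : F) * ((g 0 0 - 1) * h 0 1 + g 0 1 * (h 1 1 - 1)) +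
        (L.loc v (P.a0 : F) * g 0 1 + L.loc v (P.a0 : F) * h 0 1) := by
    rw [JS_mul_aux]; ring
  have k1 : (g 0 0 - 1) * h 0 1 + g 0 1 * (h 1 1 - 1) ∈ P.ND L v (3 * P.j) := by
    refine add_mem ?_ ?_
    · have := NP_mul_ND g1 h3
      rwa [show 2 * P.j + P.j = 3 * P.j by ring] at this
    · have := ND_mul_NP g3 h2
      rwa [show P.j + 2 * P.j = 3 * P.j by ring] at this
  rw [e, lchar_add, lchar_a0_of_ND k1, one_mul, lchar_add]

theorem psiG_one : P.psiG L v 1 = 1 := by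
  unfold psiG
  rw [Units.val_one, Matrix.one_apply_ne (by decide), mul_zero, lchar_zero]

theorem psiG_sc (z : (L.R v)ˣ) : P.psiG L v (sc z) = 1 := by
  unfold psiG
  have : (sc z : GL (Fin 2) (L.R v)) 0 1 = 0 := by
    show ((sc z : GL (Fin 2) (L.R v)) : Matrix (Fin 2) (Fin 2) (L.R v)) 0 1 = 0
    rw [sc_coe]
    simp
  rw [this, mul_zero, lchar_zero]

variable (P L) in
/-- **The group of the type** -/
def J (v : ι) : Subgroup (L.G v) := (P.JG L v).map Matrix.ProjGenLinGroup.mk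

theorem mem_J {x : L.G v} : x ∈ P.J L v ↔ ∃ g ∈ P.JG L v, Matrix.ProjGenLinGroup.mk g = x := Iff.rfl

open Classical in
variable (P L) in
/-- **The character of the type** -/
noncomputable def psi (v : ι) (x : L.G v) : ℂ :=
  if h : ∃ g ∈ P.JG L v, Matrix.ProjGenLinGroup.mk g = x then P.psiG L v h.choose else 1

theorem psi_mk {g : GL (Fin 2) (L.R v)} (hg : g ∈ P.JG L v) :
    P.psi L v (Matrix.ProjGenLinGroup.mk g) = P.psiG L v g := by
  have h : ∃ g' ∈ P.JG L v, Matrix.ProjGenLinGroup.mk g' = Matrix.ProjGenLinGroup.mk g :=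
    ⟨g, hg, rfl⟩
  rw [psi, dif_pos h]
  obtain ⟨h1, h2⟩ := h.choose_spec
  set g' := h.choose
  obtain ⟨u, hu⟩ := Matrix.ProjGenLinGroup.mk_eq_mk_iff.mp h2
  change g' * sc u = g at hu
  have h3 : sc u ∈ P.JG L v := by
    have : sc u = g'⁻¹ * g := by rw [← hu]; group
    rw [this]
    exact mul_mem (inv_mem h1) hg
  rw [← hu, psiG_mul h1.1 h3.1, psiG_sc, mul_one]

theorem psi_mul {x y : L.G v} (hx : x ∈ P.J L v) (hy : y ∈ P.J L v) :
    P.psi L v (x * y) = P.psi L v x * P.psi L v y := by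
  obtain ⟨g, hg, rfl⟩ := hx
  obtain ⟨h, hh, rfl⟩ := hy
  rw [← map_mul, psi_mk (mul_mem hg hh), psi_mk hg, psi_mk hh, psiG_mul hg.1 hh.1]

theorem psi_one : P.psi L v 1 = 1 := by
  rw [← map_one Matrix.ProjGenLinGroup.mk, psi_mk (one_mem _), psiG_one]

theorem norm_psi (x : L.G v) : ‖P.psi L v x‖ = 1 := by
  classical
  unfold psi
  split_ifs
  · exact norm_lchar _ _
  · exact norm_one

theorem psi_ne_zero (x : L.G v) : P.psi L v x ≠ 0 := by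
  intro h
  have := norm_psi (P := P) x
  rw [h, norm_zero] at this
  exact zero_ne_one this

theorem psi_inv {x : L.G v} (hx : x ∈ P.J L v) : P.psi L v x⁻¹ = (P.psi L v x)⁻¹ := by
  apply eq_inv_of_mul_eq_one_left
  rw [← psi_mul (inv_mem hx) hx, inv_mul_cancel, psi_one]

variable (P L) in
/-- elements near `1` are units of `O v` -/
def Rad (v : ι) : Prop := ∀ y ∈ P.NP L v 1, ∃ z ∈ L.O v, (1 + y) * z = 1

/-- a normalised representative of an element of `J` lies in `JG` -/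
theorem mem_JG_of_mk (hR : P.Rad L v) (hj : P.j ≠ 0) {g : GL (Fin 2) (L.R v)}
    (hg : Matrix.ProjGenLinGroup.mk g ∈ P.J L v)
    (i : Fin 2) (h1 : g i i - 1 ∈ P.NP L v (2 * P.j)) (h2 : g⁻¹ i i - 1 ∈ P.NP L v (2 * P.j)) :
    g ∈ P.JG L v := by
  obtain ⟨h, hh, hgh⟩ := hg
  obtain ⟨u, hu⟩ := Matrix.ProjGenLinGroup.mk_eq_mk_iff.mp hgh
  change h * sc u = g at hu
  have hij : ∀ h : GL (Fin 2) (L.R v), h ∈ P.JS L v → h i i - 1 ∈ P.NP L v (2 * P.j) := by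
    intro h hh
    fin_cases i
    · exact hh.1
    · exact hh.2.1
  have key : ∀ (h g : GL (Fin 2) (L.R v)) (u : (L.R v)ˣ), h * sc u = g → h ∈ P.JG L v →
      g i i - 1 ∈ P.NP L v (2 * P.j) → (u : L.R v) - 1 ∈ P.NP L v (2 * P.j) := by
    intro h g u hu hh h1
    have e1 : g i i = (u : L.R v) * h i i := by
      rw [← hu, ← sc_comm, sc_mul_apply]
    have h3 := hij h hh.1
    obtain ⟨z, hz, hz'⟩ := hR (h i i - 1) (NP_mono (by omega) h3)
    rw [add_sub_cancel] at hz'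
    have e2 : (u : L.R v) - 1 = (g i i - 1) * z - (h i i - 1) * z := by
      rw [e1]
      linear_combination ((1 : L.R v) - u) * hz'
    rw [e2]
    exact sub_mem (NP_mul h1 hz) (NP_mul h3 hz)
  have hu1 := key h g u hu hh h1
  have hu2 : ((u⁻¹ : (L.R v)ˣ) : L.R v) - 1 ∈ P.NP L v (2 * P.j) := by
    refine key h⁻¹ g⁻¹ u⁻¹ ?_ (inv_mem hh) h2
    rw [← hu, mul_inv_rev, map_inv, ← map_inv sc, sc_comm]
  have hsc : sc u ∈ P.JG L v := by
    have hs : ∀ u : (L.R v)ˣ, (u : L.R v) - 1 ∈ P.NP L v (2 * P.j) → sc u ∈ P.JS L v := by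
      intro u hu
      have e : ∀ i j, (sc u : GL (Fin 2) (L.R v)) i j = (u : L.R v) *
          (1 : Matrix (Fin 2) (Fin 2) (L.R v)) i j := by
        intro i j
        show ((sc u : GL (Fin 2) (L.R v)) : Matrix (Fin 2) (Fin 2) (L.R v)) i j = _
        rw [sc_coe]; rfl
      refine ⟨?_, ?_, ?_, ?_⟩
      · rw [e]; simpa using hu
      · rw [e]; simpa using hu
      · rw [e]; simp
      · rw [e]; simp
    exact ⟨hs u hu1, by rw [← map_inv]; exact hs u⁻¹ hu2⟩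
  rw [← hu]
  exact mul_mem hh hsc

end Par

end Fermat.Agent.LT.Ty
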